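/-
X-S21 (helper9), analytic core of the Eichler–Shimura injectivity:
maximum principle statements for `Re G`, `G` holomorphic on the upper half plane, in the interior
and at the cusp `i∞` (through Mathlib's `cuspFunction`).
-/
import Mathlib

set_option autoImplicit false

open Complex Filter Topology Function UpperHalfPlane
open scoped Real

namespace Fermat.Agent.X0.S21

local notation "ℍₒ" => upperHalfPlaneSet
local notation "I∞" => comap Complex.im atTop

theorem harm_isPreconnected_upperHalfPlaneSet : IsPreconnected ℍₒ :=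
  (convex_halfSpace_im_gt 0).isPreconnected

/-- If `exp ∘ G` is constant on the upper half plane then so is `G`. -/
theorem harm_const_of_exp_const {G : ℂ → ℂ} (hG : DifferentiableOn ℂ G ℍₒ) {c : ℂ}
    (hc : ∀ z ∈ ℍₒ, Complex.exp (G z) = c) : ∀ z ∈ ℍₒ, ∀ w ∈ ℍₒ, G z = G w := by
  have hderiv : Set.EqOn (deriv G) 0 ℍₒ := by
    intro z hz
    have hGz : DifferentiableAt ℂ G z := hG.differentiableAt (isOpen_upperHalfPlaneSet.mem_nhds hz)
    have h1 : HasDerivAt (fun w => Complex.exp (G w)) (Complex.exp (G z) * deriv G z) z :=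
      hGz.hasDerivAt.cexp
    have h2 : HasDerivAt (fun w => Complex.exp (G w)) 0 z := by
      have : (fun w => Complex.exp (G w)) =ᶠ[𝓝 z] fun _ => c := by
        filter_upwards [isOpen_upperHalfPlaneSet.mem_nhds hz] with w hw using hc w hw
      exact (hasDerivAt_const z c).congr_of_eventuallyEq this
    have h3 := h1.unique h2
    have h4 : deriv G z = 0 := by
      rcases mul_eq_zero.mp h3 with h | h
      · exact absurd h (Complex.exp_ne_zero _)
      · exact h
    simpa using h4
  intro z hz w hw
  exact isOpen_upperHalfPlaneSet.is_const_of_deriv_eq_zero harm_isPreconnected_upperHalfPlaneSet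
    hG hderiv hz hw

/-- Interior maximum: if `Re G` has a global maximum on the upper half plane at an interior point,
then `exp ∘ G` is constant. -/
theorem harm_exp_const_of_isMax {G : ℂ → ℂ} (hG : DifferentiableOn ℂ G ℍₒ) {z₀ : ℂ}
    (hz₀ : z₀ ∈ ℍₒ) (hmax : ∀ z ∈ ℍₒ, (G z).re ≤ (G z₀).re) :
    ∀ z ∈ ℍₒ, Complex.exp (G z) = Complex.exp (G z₀) := by
  have hd : DifferentiableOn ℂ (fun w => Complex.exp (G w)) ℍₒ := hG.cexp
  have hm : IsMaxOn (norm ∘ fun w => Complex.exp (G w)) ℍₒ z₀ := by
    intro z hz
    simp only [Function.comp_apply, Complex.norm_exp, Set.mem_ofPred_eq]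
    exact Real.exp_le_exp.mpr (hmax z hz)
  intro z hz
  exact Complex.eqOn_of_isPreconnected_of_isMaxOn_norm harm_isPreconnected_upperHalfPlaneSet
    isOpen_upperHalfPlaneSet hd hz₀ hm hz

/-- Maximum at the cusp: if `G` is `h`-periodic, holomorphic on the upper half plane, tends to `L`
at `i∞` and `Re G ≤ Re L` everywhere, then `exp ∘ G` is constant. -/
theorem harm_exp_const_of_le_limit {G : ℂ → ℂ} (hG : DifferentiableOn ℂ G ℍₒ) {h : ℝ} (hh : 0 < h)
    (hper : Periodic G h) {L : ℂ} (hL : Tendsto G I∞ (𝓝 L))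
    (hle : ∀ z ∈ ℍₒ, (G z).re ≤ L.re) :
    ∀ z ∈ ℍₒ, Complex.exp (G z) = Complex.exp L := by
  have h_hol : ∀ᶠ z in I∞, DifferentiableAt ℂ G z := by
    have : ∀ᶠ z in I∞, (1 : ℝ) ≤ z.im := (tendsto_comap.eventually (eventually_ge_atTop 1))
    filter_upwards [this] with z hz
    exact hG.differentiableAt (isOpen_upperHalfPlaneSet.mem_nhds (lt_of_lt_of_le one_pos hz))
  have h_bd : BoundedAtFilter I∞ G := hL.isBigO_one ℝ
  set Ĝ := Periodic.cuspFunction h G with hĜ
  have : (I∞).NeBot :=
    Filter.NeBot.comap_of_surj atTop_neBot fun y => ⟨⟨0, y⟩, rfl⟩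
  have h0 : Ĝ 0 = L := tendsto_nhds_unique (Periodic.tendsto_at_I_inf hh hper h_hol h_bd) hL
  have hdiff : DifferentiableOn ℂ Ĝ (Metric.ball 0 1) := by
    intro q hq
    by_cases hq0 : q = 0
    · subst hq0
      exact (Periodic.differentiableAt_cuspFunction_zero hh hper h_hol h_bd).differentiableWithinAt
    · have hnorm : ‖q‖ < 1 := by simpa using hq
      have him : 0 < (Periodic.invQParam h q).im := by
        rw [Periodic.im_invQParam]
        have hlog : Real.log ‖q‖ < 0 := Real.log_neg (norm_pos_iff.mpr hq0) hnorm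
        have : -h / (2 * π) < 0 := by
          apply div_neg_of_neg_of_pos (by linarith) (by positivity)
        exact mul_pos_of_neg_of_neg this hlog
      have := Periodic.differentiableAt_cuspFunction hh.ne' hper
        (hG.differentiableAt (isOpen_upperHalfPlaneSet.mem_nhds him))
      rw [Periodic.qParam_right_inv hh.ne' hq0] at this
      exact this.differentiableWithinAt
  have hre : ∀ q ∈ Metric.ball (0 : ℂ) 1, (Ĝ q).re ≤ (Ĝ 0).re := by
    intro q hq
    by_cases hq0 : q = 0
    · rw [hq0]
    · have hnorm : ‖q‖ < 1 := by simpa using hq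
      have him : 0 < (Periodic.invQParam h q).im := by
        rw [Periodic.im_invQParam]
        have hlog : Real.log ‖q‖ < 0 := Real.log_neg (norm_pos_iff.mpr hq0) hnorm
        have : -h / (2 * π) < 0 := by
          apply div_neg_of_neg_of_pos (by linarith) (by positivity)
        exact mul_pos_of_neg_of_neg this hlog
      rw [h0, hĜ, Periodic.cuspFunction_eq_of_nonzero _ _ hq0]
      exact hle _ him
  have hd : DifferentiableOn ℂ (fun q => Complex.exp (Ĝ q)) (Metric.ball 0 1) := hdiff.cexp
  have hm : IsMaxOn (norm ∘ fun q => Complex.exp (Ĝ q)) (Metric.ball 0 1) 0 := by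
    intro q hq
    simp only [Function.comp_apply, Complex.norm_exp, Set.mem_ofPred_eq]
    exact Real.exp_le_exp.mpr (hre q hq)
  have hconst := Complex.eqOn_of_isPreconnected_of_isMaxOn_norm
    (convex_ball (0 : ℂ) 1).isPreconnected Metric.isOpen_ball hd (Metric.mem_ball_self one_pos) hm
  intro z hz
  have hq : Periodic.qParam h z ∈ Metric.ball (0 : ℂ) 1 := by
    simpa using Periodic.norm_qParam_lt_one hh hz
  have := hconst hq
  simp only [Function.const_apply] at this
  rw [h0, hĜ, Periodic.eq_cuspFunction hh.ne' hper] at this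
  exact this

end Fermat.Agent.X0.S21
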