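/-
X-S21 (helper9): a holomorphic function on the upper half plane whose periods along a finite index
subgroup `Γ ≤ SL(2, ℤ)` are purely imaginary and which has limits at all cusps is constant.
-/
import Mathlib
import Fermat.Agent.X0.S21.HarmCore

set_option autoImplicit false

open Complex Filter Topology Function UpperHalfPlane ModularGroup
open scoped Real MatrixGroups Manifold

namespace Fermat.Agent.X0.S21

local notation "ℍₒ" => upperHalfPlaneSet
local notation "I∞" => comap Complex.im atTop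

section Basic

variable (W : ℍ → ℂ)

/-- The translate `z ↦ W (δ • z)` as a function on `ℂ`. -/
noncomputable def harmG (δ : SL(2, ℤ)) : ℂ → ℂ := fun z => W (δ • ofComplex z)

theorem harmG_apply_coe (δ : SL(2, ℤ)) (z : ℍ) : harmG W δ (z : ℂ) = W (δ • z) := by
  rw [harmG, ofComplex_apply]

variable {W}

theorem harmG_differentiableOn (hW : MDiff W) (δ : SL(2, ℤ)) :
    DifferentiableOn ℂ (harmG W δ) ℍₒ := by
  have h1 : MDiff (fun τ : ℍ => (δ : GL (Fin 2) ℝ) • τ) :=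
    mdifferentiable_smul (by simp)
  have h2 : MDiff (fun τ : ℍ => W ((δ : GL (Fin 2) ℝ) • τ)) := hW.comp h1
  exact mdifferentiable_iff.mp h2

theorem harmG_tendsto {δ : SL(2, ℤ)} {L : ℂ}
    (hL : Tendsto (fun w : ℍ => W (δ • w)) atImInfty (𝓝 L)) :
    Tendsto (harmG W δ) I∞ (𝓝 L) :=
  hL.comp tendsto_comap_im_ofComplex

theorem harm_tendsto_vadd (x : ℝ) : Tendsto (fun w : ℍ => x +ᵥ w) atImInfty atImInfty := by
  rw [atImInfty, tendsto_comap_iff]
  have : (UpperHalfPlane.im ∘ fun w : ℍ => x +ᵥ w) = UpperHalfPlane.im := by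
    funext w
    simp [vadd_im]
  rw [this]
  exact tendsto_comap

/-- A function on `ℍ` invariant under `z ↦ x +ᵥ z` gives a periodic function on `ℂ`. -/
theorem harm_periodic_comp_ofComplex (F : ℍ → ℂ) (x : ℝ) (hF : ∀ z : ℍ, F (x +ᵥ z) = F z) :
    Periodic (F ∘ ofComplex) x := by
  intro w
  simp only [Function.comp_apply]
  by_cases hw : 0 < w.im
  · have hw' : 0 < (w + x).im := by simpa using hw
    rw [ofComplex_apply_of_im_pos hw, ofComplex_apply_of_im_pos hw', ← hF ⟨w, hw⟩]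
    congr 1
    ext
    simp [coe_vadd, add_comm]
  · have h1 : w.im ≤ 0 := not_lt.mp hw
    have h2 : (w + x).im ≤ 0 := by simpa using h1
    rw [ofComplex_apply_eq_of_im_nonpos h2 h1]

end Basic

section Box

open scoped Modular

/-- The compact truncated fundamental domain, as a subset of `ℂ`. -/
def harmBox (A : ℝ) : Set ℂ :=
  {w | 1 ≤ normSq w ∧ |w.re| ≤ 1 / 2 ∧ 1 / 2 ≤ w.im ∧ w.im ≤ A}

theorem harmBox_isCompact (A : ℝ) : IsCompact (harmBox A) := by
  apply Metric.isCompact_of_isClosed_isBounded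
  · have h1 : IsClosed {w : ℂ | 1 ≤ normSq w} := isClosed_le continuous_const continuous_normSq
    have h2 : IsClosed {w : ℂ | |w.re| ≤ 1 / 2} :=
      isClosed_le (continuous_abs.comp Complex.continuous_re) continuous_const
    have h3 : IsClosed {w : ℂ | 1 / 2 ≤ w.im} := isClosed_le continuous_const Complex.continuous_im
    have h4 : IsClosed {w : ℂ | w.im ≤ A} := isClosed_le Complex.continuous_im continuous_const
    exact h1.inter (h2.inter (h3.inter h4))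
  · refine (Metric.isBounded_closedBall (x := (0 : ℂ)) (r := 1 / 2 + |A|)).subset ?_
    intro w hw
    obtain ⟨-, h2, h3, h4⟩ := hw
    rw [mem_closedBall_zero_iff]
    have h5 : |w.im| ≤ |A| := by
      rw [abs_of_nonneg (by linarith : (0 : ℝ) ≤ w.im)]
      exact h4.trans (le_abs_self A)
    calc ‖w‖ ≤ |w.re| + |w.im| := Complex.norm_le_abs_re_add_abs_im w
      _ ≤ 1 / 2 + |A| := add_le_add h2 h5

theorem harmBox_subset (A : ℝ) : harmBox A ⊆ ℍₒ := fun w hw =>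
  lt_of_lt_of_le (by norm_num) hw.2.2.1

theorem mem_harmBox_of_mem_fd {z : ℍ} (hz : z ∈ 𝒟) {A : ℝ} (hA : z.im ≤ A) :
    (z : ℂ) ∈ harmBox A := by
  obtain ⟨h1, h2⟩ := hz
  refine ⟨h1, h2, ?_, hA⟩
  have him : 0 < (z : ℂ).im := z.im_pos
  rw [Complex.normSq_apply] at h1
  have h3 : (z : ℂ).re * (z : ℂ).re ≤ 1 / 4 := by
    have := abs_le.mp h2
    have hre : (z : ℂ).re = z.re := rfl
    rw [hre]
    nlinarith [this.1, this.2]
  nlinarith

end Box

section Main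

variable (Γ : Subgroup SL(2, ℤ)) [Γ.FiniteIndex] {W : ℍ → ℂ}

omit [Γ.FiniteIndex] in
/-- Invariance of the real part under `Γ`. -/
theorem harm_re_mul_smul (hper : ∀ γ ∈ Γ, ∃ κ : ℝ, ∀ z : ℍ, W (γ • z) - W z = κ * Complex.I)
    {γ : SL(2, ℤ)} (hγ : γ ∈ Γ) (δ : SL(2, ℤ)) (z : ℍ) :
    (W ((γ * δ) • z)).re = (W (δ • z)).re := by
  obtain ⟨κ, hκ⟩ := hper γ hγ
  have := hκ (δ • z)
  rw [mul_smul]
  have h2 : W (γ • δ • z) = W (δ • z) + κ * Complex.I := by linear_combination this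
  rw [h2]
  simp

/-- Representatives: every `δ` is `γ * ρ q` with `γ ∈ Γ`, `ρ q` the inverse of the chosen
representative of the left coset `q = δ⁻¹ Γ`. -/
noncomputable def harmRep (q : SL(2, ℤ) ⧸ Γ) : SL(2, ℤ) := (Quotient.out q)⁻¹

omit [Γ.FiniteIndex] in
theorem harm_exists_rep (δ : SL(2, ℤ)) :
    ∃ γ ∈ Γ, δ = γ * harmRep Γ (QuotientGroup.mk δ⁻¹) := by
  obtain ⟨h, hh⟩ := QuotientGroup.mk_out_eq_mul Γ δ⁻¹
  refine ⟨h, h.2, ?_⟩
  rw [harmRep, hh]
  group

/-- Periodicity of the translates: if `W ∘ ρ` has a limit at `i∞` then it is invariant under a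
positive integer translation. -/
theorem harm_exists_period (hper : ∀ γ ∈ Γ, ∃ κ : ℝ, ∀ z : ℍ, W (γ • z) - W z = κ * Complex.I)
    (ρ : SL(2, ℤ)) {L : ℂ} (hL : Tendsto (fun w : ℍ => W (ρ • w)) atImInfty (𝓝 L)) :
    ∃ n : ℕ, 0 < n ∧ ∀ w : ℍ, W (ρ • ((n : ℝ) +ᵥ w)) = W (ρ • w) := by
  obtain ⟨n, hn0, -, hn⟩ := Subgroup.exists_pow_mem_of_index_ne_zero
    (Subgroup.FiniteIndex.index_ne_zero (H := Γ)) (ρ * T * ρ⁻¹)
  refine ⟨n, hn0, ?_⟩
  have hconj : (ρ * T * ρ⁻¹) ^ n = ρ * T ^ (n : ℤ) * ρ⁻¹ := by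
    rw [zpow_natCast, conj_pow]
  rw [hconj] at hn
  obtain ⟨κ, hκ⟩ := hper _ hn
  -- the translate identity
  have hsm : ∀ w : ℍ, (ρ * T ^ (n : ℤ) * ρ⁻¹) • (ρ • w) = ρ • ((n : ℝ) +ᵥ w) := by
    intro w
    rw [← mul_smul, inv_mul_cancel_right, mul_smul, modular_T_zpow_smul]
    simp
  have hκ' : ∀ w : ℍ, W (ρ • ((n : ℝ) +ᵥ w)) - W (ρ • w) = κ * Complex.I := by
    intro w
    rw [← hsm w]
    exact hκ (ρ • w)
  -- both terms tend to `L`
  have h1 : Tendsto (fun w : ℍ => W (ρ • ((n : ℝ) +ᵥ w))) atImInfty (𝓝 L) :=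
    hL.comp (harm_tendsto_vadd (n : ℝ))
  have h2 : Tendsto (fun w : ℍ => W (ρ • ((n : ℝ) +ᵥ w)) - W (ρ • w)) atImInfty (𝓝 (L - L)) :=
    h1.sub hL
  have h3 : Tendsto (fun _ : ℍ => (κ : ℂ) * Complex.I) atImInfty (𝓝 (L - L)) :=
    h2.congr fun w => hκ' w
  have h4 : (κ : ℂ) * Complex.I = L - L := tendsto_nhds_unique tendsto_const_nhds h3
  intro w
  have := hκ' w
  rw [h4, sub_self] at this
  exact sub_eq_zero.mp this


open scoped Modular in
/-- The supremum of the real parts of all translates is attained, either at an interior point or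
as a limit at a cusp. -/
theorem harm_exists_max (hW : MDiff W)
    (hper : ∀ γ ∈ Γ, ∃ κ : ℝ, ∀ z : ℍ, W (γ • z) - W z = κ * Complex.I)
    (L : SL(2, ℤ) → ℂ) (hL : ∀ δ, Tendsto (fun w : ℍ => W (δ • w)) atImInfty (𝓝 (L δ))) :
    ∃ q0 : SL(2, ℤ) ⧸ Γ,
      (∃ z0 : ℍ, ∀ (δ : SL(2, ℤ)) (z : ℍ), (W (δ • z)).re ≤ (W (harmRep Γ q0 • z0)).re) ∨
      (∀ (δ : SL(2, ℤ)) (z : ℍ), (W (δ • z)).re ≤ (L (harmRep Γ q0)).re) := by
  classical
  have : Fintype (SL(2, ℤ) ⧸ Γ) := Fintype.ofFinite _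
  set ρ := harmRep Γ with hρ
  have hred : ∀ (δ : SL(2, ℤ)) (z : ℍ), ∃ q, ∃ z' ∈ 𝒟,
      (W (δ • z)).re = (W (ρ q • z')).re := by
    intro δ z
    obtain ⟨g, hg⟩ := exists_smul_mem_fd z
    obtain ⟨γ, hγ, hδ⟩ := harm_exists_rep Γ (δ * g⁻¹)
    refine ⟨QuotientGroup.mk (δ * g⁻¹)⁻¹, g • z, hg, ?_⟩
    have : δ • z = (γ * ρ (QuotientGroup.mk (δ * g⁻¹)⁻¹)) • (g • z) := by
      rw [← hδ, ← mul_smul, inv_mul_cancel_right]
    rw [this, harm_re_mul_smul Γ hper hγ]
  obtain ⟨q0, -, hq0⟩ := Finset.exists_max_image Finset.univ (fun q => (L (ρ q)).re)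
    ⟨QuotientGroup.mk 1, Finset.mem_univ _⟩
  by_cases hB : ∀ (δ : SL(2, ℤ)) (z : ℍ), (W (δ • z)).re ≤ (L (ρ q0)).re
  · exact ⟨q0, Or.inr hB⟩
  · simp only [not_forall, not_le] at hB
    obtain ⟨δ1, z1, h1⟩ := hB
    have hA : ∀ q, ∃ A : ℝ, ∀ z : ℍ, A ≤ z.im → (W (ρ q • z)).re < (W (δ1 • z1)).re := by
      intro q
      have ht : Tendsto (fun z : ℍ => (W (ρ q • z)).re) atImInfty (𝓝 (L (ρ q)).re) :=
        (Complex.continuous_re.tendsto _).comp (hL (ρ q))
      have hlt : (L (ρ q)).re < (W (δ1 • z1)).re :=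
        lt_of_le_of_lt (hq0 q (Finset.mem_univ _)) h1
      have := ht.eventually (gt_mem_nhds hlt)
      exact (atImInfty_mem _).mp this
    choose A hA using hA
    obtain ⟨A0, hA0⟩ : ∃ A0, ∀ q, A q ≤ A0 := by
      obtain ⟨A0, hA0⟩ := (Set.finite_range A).bddAbove
      exact ⟨A0, fun q => hA0 ⟨q, rfl⟩⟩
    obtain ⟨q2, z2, hz2, h2⟩ := hred δ1 z1
    have hz2A : z2.im ≤ A0 := by
      by_contra hcon
      rw [not_le] at hcon
      have := hA q2 z2 ((hA0 q2).trans hcon.le)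
      rw [← h2] at this
      exact lt_irrefl _ this
    have hbox := harmBox_isCompact A0
    have hne : (harmBox A0).Nonempty := ⟨z2, mem_harmBox_of_mem_fd hz2 hz2A⟩
    have hmax : ∀ q, ∃ w ∈ harmBox A0, ∀ w' ∈ harmBox A0,
        (harmG W (ρ q) w').re ≤ (harmG W (ρ q) w).re := by
      intro q
      have hc : ContinuousOn (fun w => (harmG W (ρ q) w).re) (harmBox A0) :=
        Complex.continuous_re.comp_continuousOn
          ((harmG_differentiableOn hW (ρ q)).continuousOn.mono (harmBox_subset A0))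
      obtain ⟨w, hw, hwmax⟩ := hbox.exists_isMaxOn hne hc
      exact ⟨w, hw, fun w' hw' => hwmax hw'⟩
    choose w hwbox hwmax using hmax
    obtain ⟨q3, -, hq3⟩ := Finset.exists_max_image Finset.univ
      (fun q => (harmG W (ρ q) (w q)).re) ⟨QuotientGroup.mk 1, Finset.mem_univ _⟩
    refine ⟨q3, Or.inl ⟨⟨w q3, harmBox_subset A0 (hwbox q3)⟩, ?_⟩⟩
    intro δ z
    have hval : (W (ρ q3 • (⟨w q3, harmBox_subset A0 (hwbox q3)⟩ : ℍ))).re =
        (harmG W (ρ q3) (w q3)).re :=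
      (congrArg Complex.re (harmG_apply_coe W (ρ q3) ⟨w q3, harmBox_subset A0 (hwbox q3)⟩)).symm
    rw [hval]
    obtain ⟨q, z', hz', h⟩ := hred δ z
    rw [h]
    by_cases hzA : z'.im ≤ A0
    · calc (W (ρ q • z')).re = (harmG W (ρ q) z').re := by rw [harmG_apply_coe W]
        _ ≤ (harmG W (ρ q) (w q)).re := hwmax q _ (mem_harmBox_of_mem_fd hz' hzA)
        _ ≤ _ := hq3 q (Finset.mem_univ _)
    · rw [not_le] at hzA
      have h5 := hA q z' ((hA0 q).trans hzA.le)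
      have h6 : (W (δ1 • z1)).re = (harmG W (ρ q2) z2).re := by rw [harmG_apply_coe W]; exact h2
      have h7 : (harmG W (ρ q2) z2).re ≤ (harmG W (ρ q2) (w q2)).re :=
        hwmax q2 _ (mem_harmBox_of_mem_fd hz2 hz2A)
      linarith [hq3 q2 (Finset.mem_univ _)]

/-- **KL-harm.** A holomorphic function on `ℍ` with purely imaginary periods along a finite index
subgroup of `SL(2, ℤ)` and with limits at all cusps is constant. -/
theorem harm_const_of_imaginary_periods (hW : MDiff W)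
    (hper : ∀ γ ∈ Γ, ∃ κ : ℝ, ∀ z : ℍ, W (γ • z) - W z = κ * Complex.I)
    (hlim : ∀ δ : SL(2, ℤ), ∃ L : ℂ, Tendsto (fun w : ℍ => W (δ • w)) atImInfty (𝓝 L)) :
    ∀ z w : ℍ, W z = W w := by
  choose L hL using hlim
  obtain ⟨q0, h | h⟩ := harm_exists_max Γ hW hper L hL
  · obtain ⟨z0, hz0⟩ := h
    set ρ := harmRep Γ q0 with hρ
    have hG := harmG_differentiableOn hW ρ
    have hexp := harm_exp_const_of_isMax hG (z₀ := (z0 : ℂ)) z0.im_pos (fun z hz => by
      have := hz0 ρ ⟨z, hz⟩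
      rw [← harmG_apply_coe W, ← harmG_apply_coe W] at this
      exact this)
    have hconst := harm_const_of_exp_const hG hexp
    intro z w
    have e : ∀ u : ℍ, W u = harmG W ρ ((ρ⁻¹ • u : ℍ) : ℂ) := fun u => by
      rw [harmG_apply_coe W, smul_inv_smul]
    rw [e z, e w]
    exact hconst _ (ρ⁻¹ • z).im_pos _ (ρ⁻¹ • w).im_pos
  · set ρ := harmRep Γ q0 with hρ
    have hG := harmG_differentiableOn hW ρ
    obtain ⟨n, hn0, hn⟩ := harm_exists_period Γ hper ρ (hL ρ)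
    have hperiodic : Periodic (harmG W ρ) (n : ℝ) :=
      harm_periodic_comp_ofComplex (fun w => W (ρ • w)) n hn
    have hnpos : (0 : ℝ) < n := by exact_mod_cast hn0
    have hexp := harm_exp_const_of_le_limit hG hnpos hperiodic (harmG_tendsto (hL ρ))
      (fun z hz => by
        have := h ρ ⟨z, hz⟩
        rw [← harmG_apply_coe W] at this
        exact this)
    have hconst := harm_const_of_exp_const hG hexp
    intro z w
    have e : ∀ u : ℍ, W u = harmG W ρ ((ρ⁻¹ • u : ℍ) : ℂ) := fun u => by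
      rw [harmG_apply_coe W, smul_inv_smul]
    rw [e z, e w]
    exact hconst _ (ρ⁻¹ • z).im_pos _ (ρ⁻¹ • w).im_pos

end Main

end Fermat.Agent.X0.S21
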