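/-
X-S21 (helper9): Eichler–Shimura injectivity, analytic core.
If `U`, `V` are holomorphic primitives on `ℍ` with limits at all cusps and the periods of `U`
along `γ` and of `V` along `j γ j` cancel for all `γ ∈ Γ₀(N)`, then `U` and `V` are constant.
-/
import Mathlib
import Fermat.Prelude.Def_ModularCurve_PeriodHomPair
import Fermat.Agent.X0.S21.Harm

set_option autoImplicit false

open Complex Filter Topology Function UpperHalfPlane ModularGroup CongruenceSubgroup
open ModularCurve ModularCurve.Period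
open scoped Real MatrixGroups Manifold ComplexConjugate

namespace Fermat.Agent.X0.S21

local notation "ℍₒ" => upperHalfPlaneSet

/-- `J • (γ • z) = (j γ j) • (J • z)`. -/
theorem inj_J_smul_smul (γ : SL(2, ℤ)) (z : ℍ) :
    UpperHalfPlane.J • (γ • z) = (jConjSL γ) • (UpperHalfPlane.J • z) := by
  apply UpperHalfPlane.ext
  rw [coe_J_smul, coe_specialLinearGroup_apply, coe_specialLinearGroup_apply, coe_J_smul]
  simp only [jConjSL_coe, jConjMat_apply_zero_zero, jConjMat_apply_zero_one,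
    jConjMat_apply_one_zero, jConjMat_apply_one_one, map_div₀, map_add, map_mul]
  have h00 : conj (((algebraMap ℤ ℝ) (γ 0 0) : ℝ) : ℂ) = (((algebraMap ℤ ℝ) (γ 0 0) : ℝ) : ℂ) :=
    Complex.conj_ofReal _
  have h01 : conj (((algebraMap ℤ ℝ) (γ 0 1) : ℝ) : ℂ) = (((algebraMap ℤ ℝ) (γ 0 1) : ℝ) : ℂ) :=
    Complex.conj_ofReal _
  have h10 : conj (((algebraMap ℤ ℝ) (γ 1 0) : ℝ) : ℂ) = (((algebraMap ℤ ℝ) (γ 1 0) : ℝ) : ℂ) :=
    Complex.conj_ofReal _
  have h11 : conj (((algebraMap ℤ ℝ) (γ 1 1) : ℝ) : ℂ) = (((algebraMap ℤ ℝ) (γ 1 1) : ℝ) : ℂ) :=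
    Complex.conj_ofReal _
  rw [h00, h01, h10, h11]
  simp only [algebraMap_int_eq, eq_intCast, Int.cast_neg, Complex.ofReal_neg, Complex.ofReal_intCast]
  have e1 : ((γ 0 0 : ℤ) : ℂ) * -conj (z : ℂ) + -((γ 0 1 : ℤ) : ℂ) =
      -(((γ 0 0 : ℤ) : ℂ) * conj (z : ℂ) + ((γ 0 1 : ℤ) : ℂ)) := by ring
  have e2 : -((γ 1 0 : ℤ) : ℂ) * -conj (z : ℂ) + ((γ 1 1 : ℤ) : ℂ) =
      ((γ 1 0 : ℤ) : ℂ) * conj (z : ℂ) + ((γ 1 1 : ℤ) : ℂ) := by ring
  rw [e1, e2, neg_div]

theorem inj_J_smul_J_smul (z : ℍ) : UpperHalfPlane.J • (UpperHalfPlane.J • z) = z := by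
  apply UpperHalfPlane.ext
  rw [coe_J_smul, coe_J_smul]
  simp

theorem inj_tendsto_J_smul :
    Tendsto (fun w : ℍ => UpperHalfPlane.J • w) atImInfty atImInfty := by
  rw [atImInfty, tendsto_comap_iff]
  have : (UpperHalfPlane.im ∘ fun w : ℍ => UpperHalfPlane.J • w) = UpperHalfPlane.im := by
    funext w
    simp only [Function.comp_apply]
    rw [← UpperHalfPlane.coe_im, coe_J_smul]
    simp
  rw [this]
  exact tendsto_comap

/-- `z ↦ conj (V (J • z))` is holomorphic on `ℍ` if `V` is. -/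
theorem inj_mdiff_conj_J {V : ℍ → ℂ} (hV : MDiff V) :
    MDiff (fun z : ℍ => conj (V (UpperHalfPlane.J • z))) := by
  rw [mdifferentiable_iff] at hV ⊢
  intro w hw
  have hw' : 0 < (-(conj w)).im := by simpa using hw
  obtain ⟨h, hh⟩ : ∃ h : ℂ → ℂ, h = V ∘ ofComplex := ⟨_, rfl⟩
  rw [← hh] at hV
  have hd : DifferentiableAt ℂ h (-(conj w)) :=
    hV.differentiableAt (isOpen_upperHalfPlaneSet.mem_nhds hw')
  have hd2 : DifferentiableAt ℂ (fun u : ℂ => h (-u)) (conj w) :=
    DifferentiableAt.comp (conj w) hd (differentiableAt_id.neg)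
  have hd3 : DifferentiableAt ℂ (conj ∘ (fun u : ℂ => h (-u)) ∘ conj) w :=
    differentiableAt_conj_conj_iff.mpr hd2
  refine (hd3.congr_of_eventuallyEq ?_).differentiableWithinAt
  filter_upwards [isOpen_upperHalfPlaneSet.mem_nhds hw] with x hx
  simp only [Function.comp_apply, hh]
  rw [ofComplex_apply_of_im_pos hx, J_smul]

end Fermat.Agent.X0.S21

namespace Fermat.Agent.X0.S21

/-- **Analytic core of the Eichler–Shimura injectivity.** -/
theorem inj_const_of_cancelling_periods (N : ℕ) [NeZero N] {U V : ℍ → ℂ}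
    (hU : MDiff U) (hV : MDiff V)
    (hUlim : ∀ δ : SL(2, ℤ), ∃ L : ℂ, Tendsto (fun w : ℍ => U (δ • w)) atImInfty (𝓝 L))
    (hVlim : ∀ δ : SL(2, ℤ), ∃ L : ℂ, Tendsto (fun w : ℍ => V (δ • w)) atImInfty (𝓝 L))
    (hper : ∀ γ ∈ Gamma0 N, ∃ a : ℂ, (∀ z : ℍ, U (γ • z) - U z = a) ∧
      (∀ z : ℍ, V (jConjSL γ • z) - V z = -a)) :
    (∀ z w : ℍ, U z = U w) ∧ (∀ z w : ℍ, V z = V w) := by
  -- the holomorphic combinations
  set Vt : ℍ → ℂ := fun z => conj (V (UpperHalfPlane.J • z)) with hVt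
  have hVtd : MDiff Vt := inj_mdiff_conj_J hV
  have hWc : ∀ c : ℂ, ∀ z w : ℍ, c * U z + conj c * Vt z = c * U w + conj c * Vt w := by
    intro c
    have hmd : MDiff (fun z : ℍ => c * U z + conj c * Vt z) := by
      rw [mdifferentiable_iff] at hU hVtd ⊢
      exact (hU.const_mul c).add (hVtd.const_mul (conj c))
    refine harm_const_of_imaginary_periods (Gamma0 N) hmd ?_ ?_
    · intro γ hγ
      obtain ⟨a, ha1, ha2⟩ := hper γ hγ
      refine ⟨2 * (c * a).im, fun z => ?_⟩
      have h1 := ha1 z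
      have h2 := ha2 (UpperHalfPlane.J • z)
      have h3 : Vt (γ • z) - Vt z = conj (-a) := by
        simp only [hVt]
        rw [inj_J_smul_smul, ← map_sub, h2]
      have h4 : c * a - conj (c * a) = ((2 * (c * a).im : ℝ) : ℂ) * Complex.I :=
        Complex.sub_conj (c * a)
      rw [← h4, map_mul]
      rw [map_neg] at h3
      linear_combination c * h1 + conj c * h3
    · intro δ
      obtain ⟨LU, hLU⟩ := hUlim δ
      obtain ⟨LV, hLV⟩ := hVlim (jConjSL δ)
      refine ⟨c * LU + conj c * conj LV, ?_⟩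
      have h1 : Tendsto (fun w : ℍ => Vt (δ • w)) atImInfty (𝓝 (conj LV)) := by
        have : (fun w : ℍ => Vt (δ • w)) =
            fun w : ℍ => conj (V (jConjSL δ • (UpperHalfPlane.J • w))) := by
          funext w
          simp only [hVt]
          rw [inj_J_smul_smul]
        rw [this]
        exact (Complex.continuous_conj.tendsto _).comp (hLV.comp inj_tendsto_J_smul)
      exact (hLU.const_mul c).add (h1.const_mul (conj c))
  have h1 := hWc 1
  have hI := hWc Complex.I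
  have hUc : ∀ z w : ℍ, U z = U w := by
    intro z w
    have e1 := h1 z w
    have eI := hI z w
    simp only [map_one, one_mul, Complex.conj_I] at e1 eI
    have hI2 : Complex.I * Complex.I = -1 := Complex.I_mul_I
    linear_combination (1 / 2 : ℂ) * e1 - (Complex.I / 2) * eI +
      ((U z - Vt z - U w + Vt w) / 2) * hI2
  have hVtc : ∀ z w : ℍ, Vt z = Vt w := by
    intro z w
    have e1 := h1 z w
    simp only [map_one, one_mul] at e1
    have := hUc z w
    linear_combination e1 - this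
  refine ⟨hUc, fun z w => ?_⟩
  have := hVtc (UpperHalfPlane.J • z) (UpperHalfPlane.J • w)
  simp only [hVt, inj_J_smul_J_smul] at this
  exact (starRingEnd ℂ).injective this

end Fermat.Agent.X0.S21
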