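import Mathlib
import Fermat.Prelude.Def_ModularCurve_PeriodHomPair
import Fermat.Agent.S22.H22EichlerMap
import Fermat.Agent.S22.H22EichlerPoly
import Fermat.Agent.S22.SeparationE
import Fermat.Agent.S22.PeriodPoly

/-!
# X-S21 piece (A): the equivariant primitive of a weight-2 cusp form on `Γ₀(N)`

Existence (via the Eichler integral of the S22 development), uniqueness, linearity, the formula
for `periodMap`, `ExistsPeriodMapLinear`, and the formula for `periodHomPair`.
-/

set_option autoImplicit false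

namespace Fermat.Agent.X0.S21

open Complex Filter Topology Function
open UpperHalfPlane hiding I
open scoped Real Manifold MatrixGroups ModularForm
open CongruenceSubgroup ModularCurve ModularCurve.Period
open Fermat.Agent.S22 Fermat.Agent.S22.EichlerPrim

noncomputable section

/-- The Eichler primitive of a weight-2 cusp form. -/
def eichlerPrimitive {N : ℕ} (f : CuspForm (Gamma0 N) 2) : ℍ → ℂ :=
  fun τ => EichlerPrim.E 1 ⇑f 1 (τ : ℂ)

theorem eichlerPrimitive_eq_EI {N : ℕ} (f : CuspForm (Gamma0 N) 2) :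
    eichlerPrimitive f = EI 1 ⇑f 0 := rfl

theorem hasDerivAt_eichlerPrimitive {N : ℕ} [NeZero N] (f : CuspForm (Gamma0 N) 2) (τ : ℍ) :
    HasDerivAt (eichlerPrimitive f ∘ ofComplex) (f τ) ↑τ := by
  have hf := sepE_isCuspidalPeriodic f
  have h1 : HasDerivAt (EichlerPrim.E 1 ⇑f 1) (f τ) (τ : ℂ) := by
    have := hasDerivAt_E hf 0 τ.im_pos
    rwa [E_zero_apply hf τ] at this
  refine h1.congr_of_eventuallyEq ?_
  have hopen : {z : ℂ | 0 < z.im} ∈ 𝓝 (τ : ℂ) :=
    (isOpen_lt continuous_const Complex.continuous_im).mem_nhds τ.im_pos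
  filter_upwards [hopen] with z hz
  simp [eichlerPrimitive, Function.comp_apply, ofComplex_apply_of_im_pos hz]

theorem tendsto_eichlerPrimitive {N : ℕ} [NeZero N] (f : CuspForm (Gamma0 N) 2) :
    Tendsto (eichlerPrimitive f) atImInfty (𝓝 0) :=
  sepE_isZeroAtImInfty_E (sepE_isCuspidalPeriodic f) 1

/-- Behaviour of the Eichler primitive under `δ ∈ SL(2,ℤ)`: up to a constant it is the
Eichler primitive of the translate `f ∣[2] δ` (for any admissible period of the translate). -/
theorem exists_eichlerPrimitive_smul_eq_of_slash {N : ℕ} [NeZero N] (f : CuspForm (Gamma0 N) 2)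
    (δ : SL(2, ℤ)) {h' : ℝ} {f' : ℍ → ℂ} (hf' : IsCuspidalPeriodic h' f')
    (hslash : ⇑f ∣[(2 : ℤ)] δ = f') :
    ∃ c : ℂ, ∀ τ : ℍ, eichlerPrimitive f (δ • τ) = EI h' f' 0 τ + c := by
  have hf := sepE_isCuspidalPeriodic f
  have hdet : (Matrix.SpecialLinearGroup.mapGL ℝ δ : GL (Fin 2) ℝ).det.val = 1 := by simp
  have hslash' : (⇑f) ∣[((0 : ℕ) : ℤ) + 2]
      (Matrix.SpecialLinearGroup.mapGL ℝ δ : GL (Fin 2) ℝ) = f' := by
    rw [← hslash]
    simp only [Nat.cast_zero, zero_add]
    rfl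
  obtain ⟨P, hP, hPe⟩ := slash_EI hf hf' 0 (Matrix.SpecialLinearGroup.mapGL ℝ δ)
    (by rw [hdet]; exact one_pos) hslash'
  refine ⟨P.coeff 0, fun τ => ?_⟩
  have e := hPe τ
  rw [hdet, Complex.ofReal_one, one_pow, one_mul] at e
  have hPc : P = Polynomial.C (P.coeff 0) :=
    Polynomial.eq_C_of_natDegree_le_zero hP
  rw [hPc, Polynomial.eval_C] at e
  rw [← e, eichlerPrimitive_eq_EI]
  have : (EI 1 (⇑f) 0 ∣[-((0 : ℕ) : ℤ)] (Matrix.SpecialLinearGroup.mapGL ℝ δ : GL (Fin 2) ℝ)) =
      (EI 1 (⇑f) 0 ∣[(0 : ℤ)] δ) := by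
    simp only [Nat.cast_zero, neg_zero]
    rfl
  rw [this, ModularForm.SL_slash_apply]
  simp

theorem isEquivariantPrimitive_eichlerPrimitive {N : ℕ} [NeZero N] (f : CuspForm (Gamma0 N) 2) :
    IsEquivariantPrimitive (Gamma0 N) (eichlerPrimitive f) := by
  intro γ
  have hinv : ⇑f ∣[(2 : ℤ)] (γ : SL(2, ℤ)) = ⇑f :=
    SlashInvariantFormClass.slash_action_eq f _ (Subgroup.mem_map_of_mem _ γ.2)
  obtain ⟨c, hc⟩ := exists_eichlerPrimitive_smul_eq_of_slash f (γ : SL(2, ℤ))
    (sepE_isCuspidalPeriodic f) hinv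
  refine ⟨c, fun z => ?_⟩
  rw [hc z, ← eichlerPrimitive_eq_EI]
  ring

theorem exists_tendsto_eichlerPrimitive_smul {N : ℕ} [NeZero N] (f : CuspForm (Gamma0 N) 2)
    (δ : SL(2, ℤ)) :
    ∃ L : ℂ, Tendsto (fun w : ℍ => eichlerPrimitive f (δ • w)) atImInfty (𝓝 L) := by
  obtain ⟨h', -, hf'⟩ := sepE_exists_isCuspidalPeriodic_translate f δ
  obtain ⟨c, hc⟩ := exists_eichlerPrimitive_smul_eq_of_slash f δ hf' rfl
  refine ⟨c, ?_⟩
  have h0 : Tendsto (EI h' (⇑f ∣[(2 : ℤ)] δ) 0) atImInfty (𝓝 0) :=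
    sepE_isZeroAtImInfty_E hf' 1
  have h1 : Tendsto (fun w : ℍ => EI h' (⇑f ∣[(2 : ℤ)] δ) 0 w + c) atImInfty (𝓝 (0 + c)) :=
    h0.add_const c
  rw [zero_add] at h1
  exact h1.congr fun w => (hc w).symm

/-- (A) existence of the equivariant primitive. -/
theorem hasEquivariantPrimitive_eichlerPrimitive {N : ℕ} [NeZero N] (f : CuspForm (Gamma0 N) 2) :
    HasEquivariantPrimitive N f (eichlerPrimitive f) :=
  ⟨hasDerivAt_eichlerPrimitive f, tendsto_eichlerPrimitive f,
    isEquivariantPrimitive_eichlerPrimitive f, exists_tendsto_eichlerPrimitive_smul f⟩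

theorem exists_hasEquivariantPrimitive (N : ℕ) [NeZero N] (f : CuspForm (Gamma0 N) 2) :
    ∃ F : ℍ → ℂ, HasEquivariantPrimitive N f F :=
  ⟨_, hasEquivariantPrimitive_eichlerPrimitive f⟩

/-- Two functions on `ℍ` whose extensions have the same derivative at every point differ by a
constant. -/
theorem exists_const_of_hasDerivAt_eq {F G : ℍ → ℂ} {f : ℍ → ℂ}
    (hF : ∀ τ : ℍ, HasDerivAt (F ∘ ofComplex) (f τ) ↑τ)
    (hG : ∀ τ : ℍ, HasDerivAt (G ∘ ofComplex) (f τ) ↑τ) :
    ∃ c : ℂ, ∀ τ : ℍ, F τ - G τ = c := by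
  set D : ℂ → ℂ := fun z => (F ∘ ofComplex) z - (G ∘ ofComplex) z with hD
  have hopen : IsOpen {z : ℂ | 0 < z.im} := isOpen_lt continuous_const Complex.continuous_im
  have hconv : Convex ℝ {z : ℂ | 0 < z.im} := by
    intro x hx y hy a b ha hb hab
    simp only [Set.mem_ofPred_eq, Complex.add_im, Complex.smul_im, smul_eq_mul] at hx hy ⊢
    rcases ha.eq_or_lt with rfl | ha'
    · have hb1 : b = 1 := by linarith
      subst hb1; simpa using hy
    · have h1 : 0 < a * x.im := mul_pos ha' hx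
      have h2 : 0 ≤ b * y.im := mul_nonneg hb hy.le
      linarith
  have hderiv : ∀ z ∈ {z : ℂ | 0 < z.im}, HasDerivAt D 0 z := by
    intro z hz
    have h1 := hF ⟨z, hz⟩
    have h2 := hG ⟨z, hz⟩
    have h3 := h1.sub h2
    rw [sub_self] at h3
    exact h3
  have hdiff : DifferentiableOn ℂ D {z : ℂ | 0 < z.im} := fun z hz =>
    (hderiv z hz).differentiableAt.differentiableWithinAt
  have hconst : ∀ z ∈ {z : ℂ | 0 < z.im}, D z = D Complex.I := by
    intro z hz
    refine hconv.is_const_of_fderivWithin_eq_zero (𝕜 := ℂ) hdiff (fun w hw => ?_) hz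
      (by simp)
    rw [fderivWithin_of_isOpen hopen hw]
    have := (hderiv w hw).hasFDerivAt.fderiv
    rw [this]
    ext
    simp
  refine ⟨D Complex.I, fun τ => ?_⟩
  have := hconst τ τ.im_pos
  simpa [hD, Function.comp_apply] using this

/-- (A) uniqueness of the equivariant primitive. -/
theorem hasEquivariantPrimitive_unique {N : ℕ} {f : CuspForm (Gamma0 N) 2} {F G : ℍ → ℂ}
    (hF : HasEquivariantPrimitive N f F) (hG : HasEquivariantPrimitive N f G) : F = G := by
  obtain ⟨c, hc⟩ := exists_const_of_hasDerivAt_eq hF.1 hG.1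
  have h1 : Tendsto (fun τ : ℍ => F τ - G τ) atImInfty (𝓝 (0 - 0)) := hF.2.1.sub hG.2.1
  have h2 : Tendsto (fun τ : ℍ => F τ - G τ) atImInfty (𝓝 c) := by
    have : (fun τ : ℍ => F τ - G τ) = fun _ => c := funext hc
    rw [this]
    exact tendsto_const_nhds
  have hc0 : c = 0 := by
    have := tendsto_nhds_unique h2 h1
    simpa using this
  funext τ
  have := hc τ
  rw [hc0] at this
  exact sub_eq_zero.mp this

theorem HasEquivariantPrimitive.add' {N : ℕ} {f g : CuspForm (Gamma0 N) 2} {F G : ℍ → ℂ}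
    (hF : HasEquivariantPrimitive N f F) (hG : HasEquivariantPrimitive N g G) :
    HasEquivariantPrimitive N (f + g) (F + G) := by
  refine ⟨fun τ => ?_, ?_, fun γ => ?_, fun δ => ?_⟩
  · exact (hF.1 τ).add (hG.1 τ)
  · have := hF.2.1.add hG.2.1
    rw [add_zero] at this
    exact this
  · obtain ⟨c, hc⟩ := hF.2.2.1 γ
    obtain ⟨d, hd⟩ := hG.2.2.1 γ
    refine ⟨c + d, fun z => ?_⟩
    simp only [Pi.add_apply]
    rw [← hc z, ← hd z]
    ring
  · obtain ⟨L, hL⟩ := hF.2.2.2 δ
    obtain ⟨L', hL'⟩ := hG.2.2.2 δ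
    exact ⟨L + L', hL.add hL'⟩

theorem HasEquivariantPrimitive.smul' {N : ℕ} {f : CuspForm (Gamma0 N) 2} {F : ℍ → ℂ} (c : ℂ)
    (hF : HasEquivariantPrimitive N f F) :
    HasEquivariantPrimitive N (c • f) (c • F) := by
  refine ⟨fun τ => ?_, ?_, fun γ => ?_, fun δ => ?_⟩
  · exact (hF.1 τ).const_smul c
  · have := hF.2.1.const_smul c
    rw [smul_zero] at this
    exact this
  · obtain ⟨d, hd⟩ := hF.2.2.1 γ
    refine ⟨c * d, fun z => ?_⟩
    simp only [Pi.smul_apply, smul_eq_mul]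
    rw [← hd z]
    ring
  · obtain ⟨L, hL⟩ := hF.2.2.2 δ
    exact ⟨c • L, hL.const_smul c⟩

/-- (A) the period map is computed by any equivariant primitive. -/
theorem periodMap_apply {N : ℕ} {f : CuspForm (Gamma0 N) 2} {F : ℍ → ℂ}
    (hF : HasEquivariantPrimitive N f F) (γ : Gamma0 N) (z : ℍ) :
    periodMap N f (Additive.ofMul γ) = F ((γ : SL(2, ℤ)) • z) - F z := by
  obtain ⟨F₀, h₀, hper⟩ := periodMap_def N f hF
  have hFF : F₀ = F := hasEquivariantPrimitive_unique h₀ hF
  subst hFF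
  rw [hper, IsEquivariantPrimitive.periodHom_apply, ← IsEquivariantPrimitive.sub_eq_period _ γ z]

/-- The period map as a linear map. -/
def periodMapLinear (N : ℕ) [NeZero N] :
    CuspForm (Gamma0 N) 2 →ₗ[ℂ] (Additive (Gamma0 N) →+ ℂ) where
  toFun f := periodMap N f
  map_add' f g := by
    refine AddMonoidHom.ext fun γ => ?_
    have hf := hasEquivariantPrimitive_eichlerPrimitive f
    have hg := hasEquivariantPrimitive_eichlerPrimitive g
    show periodMap N (f + g) (Additive.ofMul (Additive.toMul γ)) =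
      periodMap N f (Additive.ofMul (Additive.toMul γ)) +
        periodMap N g (Additive.ofMul (Additive.toMul γ))
    rw [periodMap_apply (HasEquivariantPrimitive.add' hf hg) _ UpperHalfPlane.I, periodMap_apply hf _ UpperHalfPlane.I,
      periodMap_apply hg _ UpperHalfPlane.I]
    simp only [Pi.add_apply]
    ring
  map_smul' c f := by
    refine AddMonoidHom.ext fun γ => ?_
    have hf := hasEquivariantPrimitive_eichlerPrimitive f
    show periodMap N (c • f) (Additive.ofMul (Additive.toMul γ)) =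
      c • periodMap N f (Additive.ofMul (Additive.toMul γ))
    rw [periodMap_apply (HasEquivariantPrimitive.smul' c hf) _ UpperHalfPlane.I, periodMap_apply hf _ UpperHalfPlane.I]
    simp only [Pi.smul_apply, smul_eq_mul]
    ring

@[simp] theorem periodMapLinear_apply (N : ℕ) [NeZero N] (f : CuspForm (Gamma0 N) 2) :
    periodMapLinear N f = periodMap N f := rfl

/-- (A) `ExistsPeriodMapLinear`. -/
theorem existsPeriodMapLinear (N : ℕ) [NeZero N] : ExistsPeriodMapLinear N :=
  ⟨periodMapLinear N, fun _ => rfl⟩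

/-- (A) explicit formula for `periodHomPair`. -/
theorem periodHomPair_apply (N : ℕ) [NeZero N] (f g : CuspForm (Gamma0 N) 2) (γ : Gamma0 N) :
    periodHomPair N (f, g) (Additive.ofMul γ) =
      periodMap N f (Additive.ofMul γ) + periodMap N f (Additive.ofMul (jConjGamma0 N γ)) +
        (periodMap N g (Additive.ofMul γ) - periodMap N g (Additive.ofMul (jConjGamma0 N γ))) := by
  obtain ⟨pml, hpml, hpair⟩ := periodHomPair_def N (existsPeriodMapLinear N)
  rw [hpair]
  simp only [LinearMap.coprod_apply, LinearMap.comp_apply, LinearMap.add_apply,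
    LinearMap.sub_apply, LinearMap.id_apply, hpml, AddMonoidHom.add_apply,
    AddMonoidHom.sub_apply, charInvolution_apply, toMul_ofMul]

end

end Fermat.Agent.X0.S21
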