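/-
X-S21 (B) (helper9): the Eichler–Shimura map `periodHomPair N` is injective.
-/
import Mathlib
import Fermat.Prelude.Def_ModularCurve_PeriodHomPair
import Fermat.Agent.X0.S21.Primitive
import Fermat.Agent.X0.S21.InjectiveCore

set_option autoImplicit false

open Complex Filter Topology Function UpperHalfPlane CongruenceSubgroup
open ModularCurve ModularCurve.Period
open scoped Real MatrixGroups Manifold

namespace Fermat.Agent.X0.S21

/-- An equivariant primitive is holomorphic. -/
theorem inj_mdiff_of_hasEquivariantPrimitive {N : ℕ} {f : CuspForm (Gamma0 N) 2} {F : ℍ → ℂ}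
    (hF : HasEquivariantPrimitive N f F) : MDiff F := by
  rw [mdifferentiable_iff]
  intro w hw
  exact (hF.1 ⟨w, hw⟩).differentiableAt.differentiableWithinAt

/-- A constant equivariant primitive forces the form to vanish. -/
theorem inj_eq_zero_of_const {N : ℕ} {f : CuspForm (Gamma0 N) 2} {F : ℍ → ℂ}
    (hF : HasEquivariantPrimitive N f F) (hc : ∀ z w : ℍ, F z = F w) : f = 0 := by
  ext τ
  have h1 := hF.1 τ
  have h2 : HasDerivAt (F ∘ ofComplex) 0 (τ : ℂ) := by
    have : (F ∘ ofComplex) =ᶠ[𝓝 (τ : ℂ)] fun _ => F τ := by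
      filter_upwards with w using hc _ _
    exact (hasDerivAt_const (τ : ℂ) (F τ)).congr_of_eventuallyEq this
  simpa using h1.unique h2

/-- **(B)** injectivity of the Eichler–Shimura map. -/
theorem periodHomPair_injective (N : ℕ) [NeZero N] :
    Function.Injective (periodHomPair N) := by
  rw [← LinearMap.ker_eq_bot, LinearMap.ker_eq_bot']
  rintro ⟨f, g⟩ hfg
  have hU := hasEquivariantPrimitive_eichlerPrimitive (f + g)
  have hV := hasEquivariantPrimitive_eichlerPrimitive (f - g)
  have hper : ∀ γ ∈ Gamma0 N, ∃ a : ℂ,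
      (∀ z : ℍ, eichlerPrimitive (f + g) (γ • z) - eichlerPrimitive (f + g) z = a) ∧
      (∀ z : ℍ, eichlerPrimitive (f - g) (jConjSL γ • z) - eichlerPrimitive (f - g) z = -a) := by
    intro γ hγ
    refine ⟨periodMap N (f + g) (Additive.ofMul (⟨γ, hγ⟩ : Gamma0 N)), fun z => ?_, fun z => ?_⟩
    · exact (periodMap_apply hU ⟨γ, hγ⟩ z).symm
    · have h1 := periodMap_apply hV (jConjGamma0 N ⟨γ, hγ⟩) z
      rw [jConjGamma0_coe] at h1
      rw [← h1]
      have h2 := congrArg (fun φ : Additive (Gamma0 N) →+ ℂ => φ (Additive.ofMul ⟨γ, hγ⟩)) hfg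
      simp only [AddMonoidHom.zero_apply] at h2
      rw [periodHomPair_apply] at h2
      have e1 : periodMap N (f + g) = periodMap N f + periodMap N g :=
        (periodMapLinear N).map_add f g
      have e2 : periodMap N (f - g) = periodMap N f - periodMap N g :=
        (periodMapLinear N).map_sub f g
      rw [e1, e2, AddMonoidHom.add_apply, AddMonoidHom.sub_apply]
      linear_combination h2
  obtain ⟨hUc, hVc⟩ := inj_const_of_cancelling_periods N
    (inj_mdiff_of_hasEquivariantPrimitive hU) (inj_mdiff_of_hasEquivariantPrimitive hV)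
    hU.2.2.2 hV.2.2.2 hper
  have h1 : f + g = 0 := inj_eq_zero_of_const hU hUc
  have h2 : f - g = 0 := inj_eq_zero_of_const hV hVc
  have hfg' : f = g := sub_eq_zero.mp h2
  have hg : g = 0 := by
    rw [hfg'] at h1
    have h3 : (2 : ℂ) • g = 0 := by rw [two_smul]; exact h1
    exact (smul_eq_zero.mp h3).resolve_left two_ne_zero
  rw [hfg', hg]
  rfl

end Fermat.Agent.X0.S21
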