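import Mathlib
import Fermat.Prelude.Def_ModularCurve_PeriodHomPair
import Fermat.Agent.X0.S21.Primitive

/-!
# X-S21 piece (A2): parabolic elements and vanishing of periods on them

* `exists_conj_T_zpow_of_trace_sq`: an element of `SL(2,ℤ)` with `trace² = 4` is `±` a conjugate
  of a power of `T`;
* `periodMap_mem_parabolicHoms`, `range_periodHomPair_le`.
-/

set_option autoImplicit false

namespace Fermat.Agent.X0.S21

open Complex Filter Topology Function
open UpperHalfPlane hiding I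
open scoped Real Manifold MatrixGroups ModularForm
open CongruenceSubgroup ModularCurve ModularCurve.Period

/-- A primitive integer vector fixed by a trace-2 element of `SL(2,ℤ)`. -/
theorem exists_coprime_fixed_vector (a b c d : ℤ) (h3 : a + d = 2) (h4 : a * d - b * c = 1) :
    ∃ x y : ℤ, IsCoprime x y ∧ (a - 1) * x + b * y = 0 ∧ c * x + (d - 1) * y = 0 := by
  by_cases hb : b = 0 ∧ a - 1 = 0
  · obtain ⟨hb0, ha1⟩ := hb
    have hd : d - 1 = 0 := by linarith
    refine ⟨0, 1, isCoprime_zero_left.mpr isUnit_one, ?_, ?_⟩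
    · rw [hb0]; ring
    · rw [hd]; ring
  · have hg : 0 < Int.gcd b (a - 1) := by
      rw [Int.gcd_pos_iff]
      by_contra hcon
      rw [not_or, not_not, not_not] at hcon
      exact hb hcon
    obtain ⟨x', y', hxy', hbx, hay⟩ := Int.exists_gcd_one hg
    set g : ℤ := (Int.gcd b (a - 1) : ℤ) with hgdef
    have hg0 : g ≠ 0 := by
      have : (0 : ℤ) < g := Int.natCast_pos.mpr hg
      exact this.ne'
    refine ⟨x', -y', ?_, ?_, ?_⟩
    · rw [IsCoprime.neg_right_iff, Int.isCoprime_iff_gcd_eq_one]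
      exact hxy'
    · rw [hay, hbx]; ring
    · have hmul : g * (c * x' + (d - 1) * -y') = 0 := by
        have e1 : g * (c * x' + (d - 1) * -y') = c * (x' * g) - (d - 1) * (y' * g) := by ring
        rw [e1, ← hbx, ← hay]
        linear_combination (-1 : ℤ) * h4 + (1 : ℤ) * h3
      rcases mul_eq_zero.mp hmul with h | h
      · exact absurd h hg0
      · exact h

/-- A trace-2 element of `SL(2,ℤ)` is conjugate to a power of `T`. -/
theorem exists_conj_T_zpow_of_trace_eq_two (A : SL(2, ℤ))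
    (htr : (A : Matrix (Fin 2) (Fin 2) ℤ).trace = 2) :
    ∃ (δ : SL(2, ℤ)) (n : ℤ), A = δ * ModularGroup.T ^ n * δ⁻¹ := by
  have h3 : A 0 0 + A 1 1 = 2 := by rw [Matrix.trace_fin_two] at htr; exact htr
  have h4 : A 0 0 * A 1 1 - A 0 1 * A 1 0 = 1 := by
    have := A.det_coe
    rw [Matrix.det_fin_two] at this
    exact this
  obtain ⟨x, y, hxy, h1, h2⟩ := exists_coprime_fixed_vector _ _ _ _ h3 h4
  obtain ⟨u, v, huv⟩ := hxy
  -- δ = [[x, -v], [y, u]]
  have hdet : Matrix.det !![x, -v; y, u] = 1 := by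
    rw [Matrix.det_fin_two_of]
    linear_combination huv
  let δ : SL(2, ℤ) := ⟨!![x, -v; y, u], hdet⟩
  set p : ℤ := -v with hp
  set q : ℤ := u with hq
  have h5 : x * q - p * y = 1 := by rw [hp, hq]; linear_combination huv
  set w₁ : ℤ := (A 0 0 - 1) * p + A 0 1 * q with hw₁
  set w₂ : ℤ := A 1 0 * p + (A 1 1 - 1) * q with hw₂
  refine ⟨δ, q * w₁ - p * w₂, ?_⟩
  rw [eq_mul_inv_iff_mul_eq]
  apply Matrix.SpecialLinearGroup.ext
  intro i j
  rw [Matrix.SpecialLinearGroup.coe_mul, Matrix.SpecialLinearGroup.coe_mul,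
    ModularGroup.coe_T_zpow]
  have hδ : (δ : Matrix (Fin 2) (Fin 2) ℤ) = !![x, p; y, q] := rfl
  rw [hδ]
  fin_cases i <;> fin_cases j <;>
    simp only [Fin.zero_eta, Fin.mk_one, Fin.isValue, Matrix.mul_apply, Fin.sum_univ_two,
      Matrix.of_apply, Matrix.cons_val', Matrix.cons_val_zero, Matrix.cons_val_one,
      Matrix.cons_val_fin_one, mul_one, mul_zero, add_zero]
  · linear_combination h1
  · rw [hw₁, hw₂]
    linear_combination (-((A 0 0 - 1) * p + A 0 1 * q)) * h5 + p * p * h2 - p * p * y * h3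
      - p * q * h1 + p * q * x * h3
  · linear_combination h2
  · rw [hw₁, hw₂]
    linear_combination (-(A 1 0 * p + (A 1 1 - 1) * q)) * h5 + q * p * h2 - q * p * y * h3
      - q * q * h1 + q * q * x * h3

/-- (A2) Parabolic elements of `SL(2,ℤ)` are, up to sign, conjugates of powers of `T`. -/
theorem exists_conj_T_zpow_of_trace_sq (γ : SL(2, ℤ))
    (h : (γ : Matrix (Fin 2) (Fin 2) ℤ).trace ^ 2 = 4) :
    ∃ (δ : SL(2, ℤ)) (n : ℤ),
      γ = δ * ModularGroup.T ^ n * δ⁻¹ ∨ γ = -(δ * ModularGroup.T ^ n * δ⁻¹) := by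
  have h' : (γ : Matrix (Fin 2) (Fin 2) ℤ).trace = 2 ∨
      (γ : Matrix (Fin 2) (Fin 2) ℤ).trace = -2 := by
    have : ((γ : Matrix (Fin 2) (Fin 2) ℤ).trace - 2) *
        ((γ : Matrix (Fin 2) (Fin 2) ℤ).trace + 2) = 0 := by linear_combination h
    rcases mul_eq_zero.mp this with h1 | h1
    · left; linarith
    · right; linarith
  rcases h' with h2 | h2
  · obtain ⟨δ, n, hδ⟩ := exists_conj_T_zpow_of_trace_eq_two γ h2
    exact ⟨δ, n, Or.inl hδ⟩
  · have hneg : ((-γ : SL(2, ℤ)) : Matrix (Fin 2) (Fin 2) ℤ).trace = 2 := by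
      rw [Matrix.SpecialLinearGroup.coe_neg, Matrix.trace_neg, h2]
      norm_num
    obtain ⟨δ, n, hδ⟩ := exists_conj_T_zpow_of_trace_eq_two (-γ) hneg
    refine ⟨δ, n, Or.inr ?_⟩
    rw [← hδ, neg_neg]

theorem tendsto_T_zpow_smul_atImInfty (n : ℤ) :
    Tendsto (fun w : ℍ => ModularGroup.T ^ n • w) atImInfty atImInfty := by
  rw [atImInfty, tendsto_comap_iff]
  have : (UpperHalfPlane.im ∘ fun w : ℍ => ModularGroup.T ^ n • w) = UpperHalfPlane.im := by
    funext w
    show (ModularGroup.T ^ n • w).im = w.im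
    rw [UpperHalfPlane.modular_T_zpow_smul, UpperHalfPlane.vadd_im]
  rw [this]
  exact tendsto_comap

/-- (A2) Periods vanish on parabolic elements. -/
theorem periodMap_mem_parabolicHoms (N : ℕ) [NeZero N] (f : CuspForm (Gamma0 N) 2) :
    periodMap N f ∈ parabolicHoms ℂ (Gamma0 N) ℂ := by
  rw [mem_parabolicHoms_iff]
  intro γ hγ
  obtain ⟨δ, n, hδ⟩ := exists_conj_T_zpow_of_trace_sq (γ : SL(2, ℤ)) hγ
  have hF := hasEquivariantPrimitive_eichlerPrimitive f
  have hsmul : ∀ w : ℍ, (γ : SL(2, ℤ)) • (δ • w) = δ • (ModularGroup.T ^ n • w) := by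
    intro w
    rcases hδ with h | h
    · rw [h, mul_smul, mul_smul, inv_smul_smul]
    · rw [h, ModularGroup.SL_neg_smul, mul_smul, mul_smul, inv_smul_smul]
  have hval : ∀ w : ℍ, periodMap N f (Additive.ofMul γ) =
      eichlerPrimitive f (δ • (ModularGroup.T ^ n • w)) - eichlerPrimitive f (δ • w) := by
    intro w
    rw [periodMap_apply hF γ (δ • w), hsmul]
  obtain ⟨L, hL⟩ := hF.2.2.2 δ
  have h1 : Tendsto (fun w : ℍ => eichlerPrimitive f (δ • (ModularGroup.T ^ n • w)))
      atImInfty (𝓝 L) := hL.comp (tendsto_T_zpow_smul_atImInfty n)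
  have h2 : Tendsto (fun w : ℍ => eichlerPrimitive f (δ • (ModularGroup.T ^ n • w)) -
      eichlerPrimitive f (δ • w)) atImInfty (𝓝 (L - L)) := h1.sub hL
  have h3 : Tendsto (fun _ : ℍ => periodMap N f (Additive.ofMul γ)) atImInfty (𝓝 (L - L)) :=
    h2.congr fun w => (hval w).symm
  have h4 := tendsto_nhds_unique h3 tendsto_const_nhds
  rw [sub_self] at h4
  exact h4.symm

/-- (A2) The image of `periodHomPair` consists of parabolic homomorphisms. -/
theorem range_periodHomPair_le (N : ℕ) [NeZero N] :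
    LinearMap.range (periodHomPair N) ≤ parabolicHoms ℂ (Gamma0 N) ℂ := by
  rintro _ ⟨⟨f, g⟩, rfl⟩
  obtain ⟨pml, hpml, hpair⟩ := periodHomPair_def N (existsPeriodMapLinear N)
  rw [hpair]
  simp only [LinearMap.coprod_apply, LinearMap.comp_apply, LinearMap.add_apply,
    LinearMap.sub_apply, LinearMap.id_apply, hpml]
  have hf := periodMap_mem_parabolicHoms N f
  have hg := periodMap_mem_parabolicHoms N g
  exact Submodule.add_mem _
    (Submodule.add_mem _ hf (charInvolution_mem_parabolicHoms N ℂ ℂ hf))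
    (Submodule.sub_mem _ hg (charInvolution_mem_parabolicHoms N ℂ ℂ hg))

end Fermat.Agent.X0.S21
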