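import Mathlib

/-!
# X-S21 (c), abstract part: a bound for the dimension of "parabolic" homomorphisms

`G` a group acting transitively on a finite set `X`, `Γ` the stabiliser of `x₀`, `s u : G`
generating `G`, with `s ^ 4 = 1`, `u ^ 6 = 1`, `s ^ 2`, `u ^ 3` acting trivially on `X`, `t = s⁻¹ * u`.
`Par` = homomorphisms `Γ → ℂ` vanishing on all conjugates of powers of `t` lying in `Γ`.  Then
`finrank Par + #(s-orbits) + #(u-orbits) + #(t-orbits) ≤ #X + 2`.

Proof: Shapiro's lemma by hand (cocycle attached to a section), the "Manin relations", and linear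
algebra.
-/

set_option autoImplicit false

namespace Fermat.Agent.X0.S21

open Module

section Pullback

variable {G : Type*} [Group G] {X : Type*} [MulAction G X]

/-- pullback of functions along the action of `g` -/
def pb (g : G) : (X → ℂ) →ₗ[ℂ] (X → ℂ) := LinearMap.funLeft ℂ ℂ (fun x => g • x)

@[simp] lemma pb_apply (g : G) (v : X → ℂ) (x : X) : pb g v x = v (g • x) := rfl

lemma pb_mul (g h : G) (v : X → ℂ) : pb (g * h) v = pb h (pb g v) := by
  ext x; simp [mul_smul]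

@[simp] lemma pb_one (v : X → ℂ) : pb (1 : G) v = v := by
  ext x; simp

lemma pb_pow_of_trivial {g : G} {n : ℕ} (h : ∀ x : X, (g ^ n) • x = x) (v : X → ℂ) :
    pb (g ^ n) v = v := by
  ext x; simp [h x]

end Pullback

section Cocycle

variable {G : Type*} [Group G] {X : Type*} [MulAction G X] [MulAction.IsPretransitive G X]
variable (x₀ : X)

open Classical in
/-- a section of `g ↦ g • x₀`, normalised at `x₀` -/
noncomputable def sec (x : X) : G :=
  if x = x₀ then 1 else Classical.choose (MulAction.exists_smul_eq G x₀ x)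

lemma sec_smul (x : X) : sec (G := G) x₀ x • x₀ = x := by
  unfold sec
  split_ifs with h
  · simp [h]
  · exact Classical.choose_spec (MulAction.exists_smul_eq G x₀ x)

lemma sec_base : sec (G := G) x₀ x₀ = 1 := by
  unfold sec; simp

variable {x₀} (Γ : Subgroup G) (hΓ : ∀ g : G, g ∈ Γ ↔ g • x₀ = x₀)

include hΓ in
lemma elt_mem (g : G) (x : X) : (sec x₀ (g • x))⁻¹ * g * sec x₀ x ∈ Γ := by
  rw [hΓ, mul_smul, mul_smul, sec_smul, inv_smul_eq_iff, sec_smul]

/-- the element of `Γ` attached to `g` and `x` -/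
noncomputable def elt (g : G) (x : X) : Γ := ⟨(sec x₀ (g • x))⁻¹ * g * sec x₀ x, elt_mem Γ hΓ g x⟩

lemma elt_mul (g h : G) (x : X) : elt Γ hΓ (g * h) x = elt Γ hΓ g (h • x) * elt Γ hΓ h x := by
  apply Subtype.ext
  simp only [elt, Subgroup.coe_mul, mul_smul]
  group

lemma elt_one (x : X) : elt Γ hΓ 1 x = 1 := by
  apply Subtype.ext
  simp [elt]

lemma elt_base (γ : Γ) : elt Γ hΓ (γ : G) x₀ = γ := by
  apply Subtype.ext
  have h : (γ : G) • x₀ = x₀ := (hΓ _).1 γ.2
  simp [elt, h, sec_base]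

/-- the cocycle attached to a homomorphism `φ : Γ → ℂ`, as a linear map in `φ` -/
noncomputable def cocL (g : G) : (Additive Γ →+ ℂ) →ₗ[ℂ] (X → ℂ) where
  toFun φ := fun x => φ (Additive.ofMul (elt Γ hΓ g x))
  map_add' _ _ := rfl
  map_smul' _ _ := rfl

@[simp] lemma cocL_apply (g : G) (φ : Additive Γ →+ ℂ) (x : X) :
    cocL Γ hΓ g φ x = φ (Additive.ofMul (elt Γ hΓ g x)) := rfl

lemma cocL_mul (g h : G) (φ : Additive Γ →+ ℂ) :
    cocL Γ hΓ (g * h) φ = pb h (cocL Γ hΓ g φ) + cocL Γ hΓ h φ := by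
  ext x
  simp only [cocL_apply, Pi.add_apply, pb_apply, elt_mul, ofMul_mul, map_add]

lemma cocL_one (φ : Additive Γ →+ ℂ) : cocL Γ hΓ 1 φ = 0 := by
  ext x
  simp [elt_one]

lemma cocL_base (γ : Γ) (φ : Additive Γ →+ ℂ) : cocL Γ hΓ (γ : G) φ x₀ = φ (Additive.ofMul γ) := by
  simp [elt_base]

lemma cocL_inv (g : G) (φ : Additive Γ →+ ℂ) :
    cocL Γ hΓ g⁻¹ φ = - pb g⁻¹ (cocL Γ hΓ g φ) := by
  have h := cocL_mul Γ hΓ g g⁻¹ φ
  rw [mul_inv_cancel, cocL_one] at h
  exact eq_neg_of_add_eq_zero_right h.symm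

/-- if `g ^ n` acts trivially and `g ^ (2 * n) = 1`, then the cocycle vanishes on `g ^ n`. -/
lemma cocL_pow_eq_zero {g : G} {n : ℕ} (h1 : ∀ x : X, (g ^ n) • x = x) (h2 : g ^ (2 * n) = 1)
    (φ : Additive Γ →+ ℂ) : cocL Γ hΓ (g ^ n) φ = 0 := by
  ext x
  simp only [cocL_apply, Pi.zero_apply]
  set e := elt Γ hΓ (g ^ n) x with he
  have hsq : e * e = 1 := by
    apply Subtype.ext
    simp only [he, elt, Subgroup.coe_mul, h1 x, Subgroup.coe_one]
    have : (sec x₀ x)⁻¹ * g ^ n * sec x₀ x * ((sec x₀ x)⁻¹ * g ^ n * sec x₀ x)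
        = (sec x₀ x)⁻¹ * (g ^ n * g ^ n) * sec x₀ x := by group
    rw [this, ← pow_add, ← two_mul, h2]; group
  have h2φ : φ (Additive.ofMul e) + φ (Additive.ofMul e) = 0 := by
    rw [← map_add, ← ofMul_mul, hsq]; simp
  have : (2 : ℂ) * φ (Additive.ofMul e) = 0 := by rw [two_mul]; exact h2φ
  simpa using this

end Cocycle


section Gens

variable {G : Type*} [Group G] {X : Type*} [MulAction G X] [MulAction.IsPretransitive G X]
variable {x₀ : X} (Γ : Subgroup G) (hΓ : ∀ g : G, g ∈ Γ ↔ g • x₀ = x₀)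
variable {s u : G} (hgen : Subgroup.closure {s, u} = ⊤)

include hgen in
/-- a cocycle which is a coboundary on the generators is a coboundary -/
lemma cocL_eq_of_gens (φ : Additive Γ →+ ℂ) (v : X → ℂ)
    (hs : cocL Γ hΓ s φ = pb s v - v) (hu : cocL Γ hΓ u φ = pb u v - v) (g : G) :
    cocL Γ hΓ g φ = pb g v - v := by
  have hg : g ∈ Subgroup.closure {s, u} := by rw [hgen]; trivial
  induction hg using Subgroup.closure_induction with
  | mem x hx =>
    rcases hx with rfl | rfl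
    · exact hs
    · exact hu
  | one => rw [cocL_one]; simp
  | mul x y _ _ hx hy =>
    rw [cocL_mul, hx, hy, pb_mul, map_sub]; abel
  | inv x _ hx =>
    rw [cocL_inv, hx, map_sub, ← pb_mul, mul_inv_cancel, pb_one]; abel

include hgen in
/-- Shapiro injectivity: a homomorphism whose cocycle is a coboundary on the generators is `0`. -/
lemma eq_zero_of_gens (φ : Additive Γ →+ ℂ) (v : X → ℂ)
    (hs : cocL Γ hΓ s φ = pb s v - v) (hu : cocL Γ hΓ u φ = pb u v - v) : φ = 0 := by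
  refine AddMonoidHom.ext fun γ => ?_
  obtain ⟨γ, rfl⟩ := Additive.ofMul.surjective γ
  have h := cocL_eq_of_gens Γ hΓ hgen φ v hs hu (γ : G)
  have h2 := congrFun h x₀
  rw [cocL_base] at h2
  rw [h2]
  have : (γ : G) • x₀ = x₀ := (hΓ _).1 γ.2
  simp [this]

include hgen in
/-- a function invariant under both generators is constant -/
lemma const_of_gens (x₀ : X) (v : X → ℂ) (hs : pb s v = v) (hu : pb u v = v) (x : X) :
    v x = v x₀ := by
  have hΓ : ∀ g : G, g ∈ MulAction.stabilizer G x₀ ↔ g • x₀ = x₀ := fun g =>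
    MulAction.mem_stabilizer_iff
  have h : ∀ g : G, cocL (MulAction.stabilizer G x₀) hΓ g 0 = pb g v - v := by
    intro g
    apply cocL_eq_of_gens _ hΓ hgen
    · simp [hs]
    · simp [hu]
  obtain ⟨g, rfl⟩ := MulAction.exists_smul_eq G x₀ x
  have := congrFun (h g) x₀
  simp at this
  linear_combination -this

end Gens


section Avg

variable {G : Type*} [Group G] {X : Type*} [MulAction G X]

/-- `avg g n w = ∑_{i<n} w ∘ g^i` -/
def avg (g : G) (n : ℕ) : (X → ℂ) →ₗ[ℂ] (X → ℂ) := ∑ i ∈ Finset.range n, pb (g ^ i)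

lemma avg_apply (g : G) (n : ℕ) (w : X → ℂ) (x : X) :
    avg g n w x = ∑ i ∈ Finset.range n, w ((g ^ i) • x) := by
  simp [avg, LinearMap.sum_apply, Finset.sum_apply]

/-- telescoping -/
lemma avg_pb_sub {g : G} {n : ℕ} (hn : ∀ x : X, (g ^ n) • x = x) (w : X → ℂ) :
    avg g n (pb g w - w) = 0 := by
  ext x
  rw [avg_apply]
  simp only [Pi.sub_apply, pb_apply, Pi.zero_apply]
  have : ∀ i : ℕ, w (g • (g ^ i) • x) = w ((g ^ (i + 1)) • x) := by
    intro i; rw [pow_succ', mul_smul]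
  simp_rw [this]
  rw [Finset.sum_range_sub (fun i => w ((g ^ i) • x))]
  simp [hn x]

/-- on invariant functions `avg` is multiplication by `n` -/
lemma avg_of_inv {g : G} (n : ℕ) (w : X → ℂ) (hw : pb g w = w) : avg g n w = (n : ℂ) • w := by
  have h : ∀ i : ℕ, pb (g ^ i) w = w := by
    intro i
    induction i with
    | zero => simp
    | succ i ih => rw [pow_succ, pb_mul, ih, hw]
  ext x
  simp [avg, LinearMap.sum_apply, h]

end Avg

section ParCond

variable {G : Type*} [Group G] {X : Type*} [MulAction G X] [MulAction.IsPretransitive G X]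
variable {x₀ : X} (Γ : Subgroup G) (hΓ : ∀ g : G, g ∈ Γ ↔ g • x₀ = x₀)

lemma cocL_pow (g : G) (n : ℕ) (φ : Additive Γ →+ ℂ) :
    cocL Γ hΓ (g ^ n) φ = avg g n (cocL Γ hΓ g φ) := by
  induction n with
  | zero => simp [cocL_one, avg]
  | succ n ih =>
    rw [pow_succ', cocL_mul, ih]
    ext x
    simp only [Pi.add_apply, pb_apply, avg_apply, Finset.sum_range_succ]
    ring

/-- homomorphisms vanishing on all conjugates of powers of `t` lying in `Γ` -/
def Par (t : G) : Submodule ℂ (Additive Γ →+ ℂ) where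
  carrier := {φ | ∀ (g : G) (k : ℕ) (h : g * t ^ k * g⁻¹ ∈ Γ), φ (Additive.ofMul ⟨_, h⟩) = 0}
  zero_mem' := fun _ _ _ => rfl
  add_mem' := by
    intro φ ψ hφ hψ g k h
    show φ _ + ψ _ = 0
    rw [hφ g k h, hψ g k h, add_zero]
  smul_mem' := by
    intro c φ hφ g k h
    show c • φ _ = 0
    rw [hφ g k h, smul_zero]

lemma cocL_pow_of_par {t : G} {φ : Additive Γ →+ ℂ} (hφ : φ ∈ Par Γ t) {n : ℕ}
    (hn : ∀ x : X, (t ^ n) • x = x) : cocL Γ hΓ (t ^ n) φ = 0 := by
  ext x
  simp only [cocL_apply, Pi.zero_apply]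
  have hmem : (sec x₀ x)⁻¹ * t ^ n * ((sec x₀ x)⁻¹)⁻¹ ∈ Γ := by
    have := elt_mem Γ hΓ (t ^ n) x
    rw [hn x] at this
    simpa using this
  have h := hφ (sec x₀ x)⁻¹ n hmem
  convert h using 3
  apply Subtype.ext
  simp [elt, hn x]

/-- the parabolic condition in terms of `a = c(s)`, `b = c(u)`, `t = s⁻¹ u`. -/
lemma avg_sub_of_par {s u : G} {φ : Additive Γ →+ ℂ} (hφ : φ ∈ Par Γ (s⁻¹ * u)) {n : ℕ}
    (hn : ∀ x : X, ((s⁻¹ * u) ^ n) • x = x) :
    avg (s⁻¹ * u) n (cocL Γ hΓ u φ - cocL Γ hΓ s φ) = 0 := by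
  have h1 := cocL_pow_of_par Γ hΓ hφ hn
  rw [cocL_pow, cocL_mul, cocL_inv, map_neg, ← pb_mul] at h1
  have h2 := avg_pb_sub hn (cocL Γ hΓ s φ)
  have : cocL Γ hΓ u φ - cocL Γ hΓ s φ
      = (-(pb (s⁻¹ * u)) ((cocL Γ hΓ s) φ) + (cocL Γ hΓ u) φ)
        + (pb (s⁻¹ * u) (cocL Γ hΓ s φ) - cocL Γ hΓ s φ) := by abel
  rw [this, map_add, h1, h2, add_zero]

end ParCond


section LinAlg

variable {G : Type*} [Group G] {X : Type*} [MulAction G X]

/-- `(v₁, v₂) ↦ (v₁ ∘ s - v₁, v₂ ∘ u - v₂)` -/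
def Dmap (s u : G) : (X → ℂ) × (X → ℂ) →ₗ[ℂ] (X → ℂ) × (X → ℂ) :=
  LinearMap.prodMap (pb s - LinearMap.id) (pb u - LinearMap.id)

@[simp] lemma Dmap_apply (s u : G) (v : (X → ℂ) × (X → ℂ)) :
    Dmap s u v = (pb s v.1 - v.1, pb u v.2 - v.2) := rfl

/-- `(v₁, v₂) ↦ (v₂ ∘ u - v₂) - (v₁ ∘ s - v₁)` -/
def dmap (s u : G) : (X → ℂ) × (X → ℂ) →ₗ[ℂ] (X → ℂ) :=
  (LinearMap.snd ℂ _ _ - LinearMap.fst ℂ _ _) ∘ₗ Dmap s u

@[simp] lemma dmap_apply (s u : G) (v : (X → ℂ) × (X → ℂ)) :
    dmap s u v = (pb u v.2 - v.2) - (pb s v.1 - v.1) := rfl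

variable {s u : G} (hgen : Subgroup.closure {s, u} = ⊤)

include hgen in
lemma pb_sub_mem_range_dmap (g : G) : ∀ v : X → ℂ, pb g v - v ∈ LinearMap.range (dmap s u) := by
  have hg : g ∈ Subgroup.closure {s, u} := by rw [hgen]; trivial
  induction hg using Subgroup.closure_induction with
  | mem x hx =>
    intro v
    rcases hx with rfl | rfl
    · exact ⟨(-v, 0), by simp; abel⟩
    · exact ⟨(0, v), by simp⟩
  | one => intro v; simp
  | mul x y _ _ hx hy =>
    intro v
    have : pb (x * y) v - v = (pb y (pb x v) - pb x v) + (pb x v - v) := by rw [pb_mul]; abel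
    rw [this]
    exact Submodule.add_mem _ (hy _) (hx _)
  | inv x _ hx =>
    intro v
    have : pb x⁻¹ v - v = -(pb x (pb x⁻¹ v) - pb x⁻¹ v) := by
      rw [← pb_mul, inv_mul_cancel, pb_one]; abel
    rw [this]
    exact Submodule.neg_mem _ (hx _)

include hgen in
lemma mem_range_dmap_of_sum_eq_zero [Fintype X] [DecidableEq X] [MulAction.IsPretransitive G X]
    (x₀ : X) (w : X → ℂ) (hw : ∑ x, w x = 0) : w ∈ LinearMap.range (dmap s u) := by
  have h1 : w = ∑ x, w x • (Pi.single x (1 : ℂ) - Pi.single x₀ (1 : ℂ)) := by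
    simp_rw [smul_sub, Finset.sum_sub_distrib, ← Finset.sum_smul, hw, zero_smul, sub_zero]
    exact pi_eq_sum_univ' w
  rw [h1]
  refine Submodule.sum_mem _ fun x _ => Submodule.smul_mem _ _ ?_
  obtain ⟨g, hg⟩ := MulAction.exists_smul_eq G x x₀
  have h2 : (Pi.single x (1 : ℂ) - Pi.single x₀ (1 : ℂ) : X → ℂ)
      = pb g (Pi.single x₀ (1 : ℂ)) - Pi.single x₀ (1 : ℂ) := by
    congr 1
    ext y
    simp only [pb_apply, Pi.single_apply]
    by_cases hy : y = x
    · subst hy; simp [hg]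
    · have : g • y ≠ x₀ := by
        intro h
        apply hy
        rw [← hg] at h
        exact MulAction.injective g h
      simp [hy, this]
  rw [h2]
  exact pb_sub_mem_range_dmap hgen g _

end LinAlg

section Orbits

variable {G : Type*} [Group G] {X : Type*} [MulAction G X]

/-- the orbit space of the cyclic group generated by `g` -/
abbrev Orb (g : G) (X : Type*) [MulAction G X] : Type _ :=
  MulAction.orbitRel.Quotient (Subgroup.zpowers g) X

/-- the `g`-invariant functions -/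
def invSub (g : G) : Submodule ℂ (X → ℂ) := LinearMap.ker (pb g - LinearMap.id)

lemma mem_invSub {g : G} {v : X → ℂ} : v ∈ invSub g ↔ pb g v = v := by
  simp [invSub, sub_eq_zero]

lemma card_orb_le_finrank_invSub [Finite X] (g : G) :
    Nat.card (Orb g X) ≤ finrank ℂ (invSub (X := X) g) := by
  classical
  letI : Fintype X := Fintype.ofFinite X
  letI : Fintype (Orb g X) := Fintype.ofFinite _
  let mk : X → Orb g X := Quotient.mk''
  have hmk : Function.Surjective mk := Quotient.mk''_surjective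
  let ι : (Orb g X → ℂ) →ₗ[ℂ] invSub (X := X) g :=
    LinearMap.codRestrict _ (LinearMap.funLeft ℂ ℂ mk) (by
      intro f
      rw [mem_invSub]
      ext x
      simp only [pb_apply, LinearMap.funLeft_apply]
      congr 1
      apply Quotient.sound
      exact ⟨⟨g, Subgroup.mem_zpowers g⟩, rfl⟩)
  have hι : Function.Injective ι := by
    intro f₁ f₂ h
    have h' : (LinearMap.funLeft ℂ ℂ mk) f₁ = (LinearMap.funLeft ℂ ℂ mk) f₂ :=
      congrArg Subtype.val h
    exact LinearMap.funLeft_injective_of_surjective ℂ ℂ mk hmk h'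
  have := LinearMap.finrank_le_finrank_of_injective hι
  rwa [Module.finrank_fintype_fun_eq_card, ← Nat.card_eq_fintype_card] at this

end Orbits


section Helper

variable {M N : Type*} [AddCommGroup M] [Module ℂ M] [AddCommGroup N] [Module ℂ N]

lemma finrank_map_add_le [FiniteDimensional ℂ M] (f : M →ₗ[ℂ] N) (p q : Submodule ℂ M)
    (hq : q ≤ p) (hqk : q ≤ LinearMap.ker f) :
    finrank ℂ (p.map f) + finrank ℂ q ≤ finrank ℂ p := by
  have h1 := LinearMap.finrank_range_add_finrank_ker (f.domRestrict p)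
  rw [LinearMap.range_domRestrict] at h1
  let j : q →ₗ[ℂ] LinearMap.ker (f.domRestrict p) :=
    LinearMap.codRestrict _ (Submodule.inclusion hq) (by
      intro x
      rw [LinearMap.mem_ker]
      exact hqk x.2)
  have hj : Function.Injective j := by
    intro x y h
    have := congrArg (fun z => ((z : LinearMap.ker (f.domRestrict p)) : p)) h
    exact Submodule.inclusion_injective hq this
  have h2 := LinearMap.finrank_le_finrank_of_injective hj
  omega

end Helper


section Main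

variable {G : Type*} [Group G] {X : Type*} [MulAction G X] [MulAction.IsPretransitive G X]
variable {x₀ : X} (Γ : Subgroup G) (hΓ : ∀ g : G, g ∈ Γ ↔ g • x₀ = x₀)
variable {s u : G}

/-- The comparison map `(φ, v) ↦ (c_φ(s) + (v ∘ s - v), c_φ(u) + (v ∘ u - v))`. -/
noncomputable def Theta (s u : G) :
    (Par Γ (s⁻¹ * u) × (X → ℂ)) →ₗ[ℂ] (X → ℂ) × (X → ℂ) :=
  LinearMap.coprod
    (LinearMap.prod (cocL Γ hΓ s ∘ₗ (Par Γ (s⁻¹ * u)).subtype)
      (cocL Γ hΓ u ∘ₗ (Par Γ (s⁻¹ * u)).subtype))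
    (Dmap s u ∘ₗ LinearMap.prod LinearMap.id LinearMap.id)

lemma Theta_apply (z : Par Γ (s⁻¹ * u) × (X → ℂ)) :
    Theta Γ hΓ s u z = (cocL Γ hΓ s z.1 + (pb s z.2 - z.2), cocL Γ hΓ u z.1 + (pb u z.2 - z.2)) := by
  simp [Theta]

variable (hgen : Subgroup.closure {s, u} = ⊤)

include hgen in
lemma eq_zero_of_Theta_eq_zero (z : Par Γ (s⁻¹ * u) × (X → ℂ)) (hz : Theta Γ hΓ s u z = 0)
    (h0 : z.2 x₀ = 0) : z = 0 := by
  rw [Theta_apply, Prod.mk_eq_zero] at hz
  obtain ⟨h1, h2⟩ := hz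
  have hφ : (z.1 : Additive Γ →+ ℂ) = 0 := by
    apply eq_zero_of_gens Γ hΓ hgen _ (-z.2)
    · rw [map_neg]; linear_combination (exp := 1) h1
    · rw [map_neg]; linear_combination (exp := 1) h2
  rw [hφ, map_zero, zero_add, sub_eq_zero] at h1 h2
  have hv : z.2 = 0 := by
    ext x
    rw [const_of_gens hgen x₀ z.2 h1 h2 x, h0]; rfl
  apply Prod.ext
  · exact Subtype.ext hφ
  · exact hv

include hgen in
lemma finrank_ker_Theta_le : finrank ℂ (LinearMap.ker (Theta Γ hΓ s u)) ≤ 1 := by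
  let ev : LinearMap.ker (Theta Γ hΓ s u) →ₗ[ℂ] ℂ :=
    (LinearMap.proj x₀ ∘ₗ LinearMap.snd ℂ _ _) ∘ₗ (LinearMap.ker (Theta Γ hΓ s u)).subtype
  have hev : Function.Injective ev := by
    intro z₁ z₂ h
    have h0 : ev (z₁ - z₂) = 0 := by rw [map_sub ev z₁ z₂, h, sub_self]
    have h1 : z₁ - z₂ = 0 := by
      apply Subtype.ext
      exact eq_zero_of_Theta_eq_zero Γ hΓ hgen (z₁ - z₂).1 (z₁ - z₂).2 h0
    exact sub_eq_zero.mp h1
  have := LinearMap.finrank_le_finrank_of_injective hev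
  simpa using this

variable (hs2 : ∀ x : X, (s ^ 2) • x = x) (hs4 : s ^ 4 = 1)
  (hu3 : ∀ x : X, (u ^ 3) • x = x) (hu6 : u ^ 6 = 1)

include hs2 hs4 in
lemma rel_s (φ : Additive Γ →+ ℂ) : pb s (cocL Γ hΓ s φ) + cocL Γ hΓ s φ = 0 := by
  have h := cocL_pow_eq_zero Γ hΓ (g := s) (n := 2) hs2 (by norm_num; exact hs4) φ
  rw [pow_two, cocL_mul] at h; exact h

include hu3 hu6 in
lemma rel_u (φ : Additive Γ →+ ℂ) :
    pb u (pb u (cocL Γ hΓ u φ)) + pb u (cocL Γ hΓ u φ) + cocL Γ hΓ u φ = 0 := by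
  have h := cocL_pow_eq_zero Γ hΓ (g := u) (n := 3) hu3 (by norm_num; exact hu6) φ
  rw [pow_succ, pow_two, cocL_mul, cocL_mul, map_add] at h; exact h

include hs2 hs4 hu3 hu6 in
lemma range_Theta_le {n : ℕ} (ht : ∀ x : X, ((s⁻¹ * u) ^ n) • x = x) :
    LinearMap.range (Theta Γ hΓ s u)
      ≤ (LinearMap.ker (avg (s⁻¹ * u) n ∘ₗ dmap s u)).map (Dmap s u) := by
  rintro _ ⟨z, rfl⟩
  set a := cocL Γ hΓ s z.1 with ha
  set b := cocL Γ hΓ u z.1 with hb
  set v := z.2 with hv
  have ra : pb s a + a = 0 := rel_s Γ hΓ hs2 hs4 _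
  have rb : pb u (pb u b) + pb u b + b = 0 := rel_u Γ hΓ hu3 hu6 _
  have hD : Dmap s u (-((1 / 2 : ℂ) • a) + v, -((1 / 3 : ℂ) • ((2 : ℂ) • b + pb u b)) + v)
      = Theta Γ hΓ s u z := by
    rw [Theta_apply, Dmap_apply]
    apply Prod.ext
    · ext x
      have := congrFun ra x
      simp only [Pi.add_apply, pb_apply, Pi.zero_apply] at this
      simp only [map_add, map_neg, map_smul, Pi.add_apply, Pi.sub_apply, Pi.neg_apply,
        Pi.smul_apply, pb_apply, smul_eq_mul]
      linear_combination (-1 / 2 : ℂ) * this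
    · ext x
      have := congrFun rb x
      simp only [Pi.add_apply, pb_apply, Pi.zero_apply] at this
      simp only [map_add, map_neg, map_smul, Pi.add_apply, Pi.sub_apply, Pi.neg_apply,
        Pi.smul_apply, pb_apply, smul_eq_mul]
      linear_combination (-1 / 3 : ℂ) * this
  refine ⟨_, ?_, hD⟩
  show _ ∈ LinearMap.ker _
  rw [LinearMap.mem_ker, LinearMap.comp_apply]
  have h1 : dmap s u (-((1 / 2 : ℂ) • a) + v, -((1 / 3 : ℂ) • ((2 : ℂ) • b + pb u b)) + v)
      = (b - a) + (pb (s⁻¹ * u) (pb s v) - pb s v) := by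
    have : dmap s u (-((1 / 2 : ℂ) • a) + v, -((1 / 3 : ℂ) • ((2 : ℂ) • b + pb u b)) + v)
        = (Theta Γ hΓ s u z).2 - (Theta Γ hΓ s u z).1 := by
      rw [← hD]; rfl
    rw [this, Theta_apply, ← pb_mul, mul_inv_cancel_left]
    simp only [← ha, ← hb, ← hv]
    abel
  rw [h1, map_add, avg_pb_sub ht, add_zero]
  exact avg_sub_of_par Γ hΓ z.1.2 ht

omit [MulAction.IsPretransitive G X] in
lemma exists_pow_smul_eq [Finite X] (t : G) : ∃ n : ℕ, 0 < n ∧ ∀ x : X, (t ^ n) • x = x := by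
  refine ⟨orderOf (MulAction.toPermHom G X t), orderOf_pos _, fun x => ?_⟩
  have h : (MulAction.toPermHom G X t) ^ orderOf (MulAction.toPermHom G X t) = 1 :=
    pow_orderOf_eq_one _
  rw [← map_pow] at h
  have := congrArg (fun e : Equiv.Perm X => e x) h
  simpa using this

include hΓ hgen in
/-- `Par` is finite-dimensional -/
lemma finite_par [Finite X] : Module.Finite ℂ (Par Γ (s⁻¹ * u)) := by
  classical
  letI : Fintype X := Fintype.ofFinite X
  let f : Par Γ (s⁻¹ * u) →ₗ[ℂ] (X → ℂ) × (X → ℂ) :=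
    Theta Γ hΓ s u ∘ₗ LinearMap.inl ℂ _ _
  have hf : Function.Injective f := by
    intro φ₁ φ₂ h
    have h0 : f (φ₁ - φ₂) = 0 := by rw [map_sub f φ₁ φ₂, h, sub_self]
    have h1 := eq_zero_of_Theta_eq_zero Γ hΓ hgen ((φ₁ - φ₂, 0) : Par Γ (s⁻¹ * u) × (X → ℂ)) h0 rfl
    have h2 : φ₁ - φ₂ = 0 := congrArg Prod.fst h1
    exact sub_eq_zero.mp h2
  exact Module.Finite.of_injective f hf

include hgen in
/-- every `t`-invariant function is in the range of `(z, c) ↦ avg (dmap z) + c`. -/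
lemma invSub_le_range [Finite X] (y₀ : X) {n : ℕ} (hn : 0 < n) :
    invSub (X := X) (s⁻¹ * u) ≤ LinearMap.range
      (LinearMap.coprod (avg (s⁻¹ * u) n ∘ₗ dmap s u)
        (LinearMap.toSpanSingleton ℂ (X → ℂ) (fun _ => (1 : ℂ)))) := by
  classical
  letI : Fintype X := Fintype.ofFinite X
  intro w hw
  rw [mem_invSub] at hw
  have hX : (Fintype.card X : ℂ) ≠ 0 := by
    have : 0 < Fintype.card X := Fintype.card_pos_iff.mpr ⟨y₀⟩
    exact_mod_cast this.ne'
  have hn' : (n : ℂ) ≠ 0 := by exact_mod_cast hn.ne'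
  set c : ℂ := (∑ x, w x) / Fintype.card X with hc
  set w'' : X → ℂ := (1 / (n : ℂ)) • (w - c • fun _ => (1 : ℂ)) with hw''
  have hsum : ∑ x, w'' x = 0 := by
    simp only [hw'', Pi.smul_apply, Pi.sub_apply, smul_eq_mul, mul_one, ← Finset.mul_sum,
      Finset.sum_sub_distrib, Finset.sum_const, Finset.card_univ, nsmul_eq_mul]
    rw [hc]; field_simp; ring
  obtain ⟨z, hz⟩ := mem_range_dmap_of_sum_eq_zero hgen y₀ w'' hsum
  have hinv : pb (s⁻¹ * u) w'' = w'' := by
    rw [hw'', map_smul, map_sub, map_smul, hw]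
    rfl
  refine ⟨(z, c), ?_⟩
  rw [LinearMap.coprod_apply, LinearMap.comp_apply, hz, avg_of_inv n w'' hinv, hw'']
  ext x
  simp only [LinearMap.toSpanSingleton_apply, Pi.add_apply, Pi.smul_apply, Pi.sub_apply,
    smul_eq_mul, mul_one]
  field_simp
  ring

include hΓ hgen hs2 hs4 hu3 hu6 in
/-- **Main bound.** -/
theorem finrank_par_add_card_orb_le [Finite X] :
    finrank ℂ (Par Γ (s⁻¹ * u)) + Nat.card (Orb s X) + Nat.card (Orb u X)
      + Nat.card (Orb (s⁻¹ * u) X) ≤ Nat.card X + 2 := by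
  classical
  letI : Fintype X := Fintype.ofFinite X
  haveI := finite_par Γ hΓ hgen
  obtain ⟨n, hn, ht⟩ := exists_pow_smul_eq (X := X) (s⁻¹ * u)
  set K : Submodule ℂ ((X → ℂ) × (X → ℂ)) :=
    LinearMap.ker (avg (X := X) (s⁻¹ * u) n ∘ₗ dmap s u) with hK
  -- rank-nullity for `Theta`
  have e1 := LinearMap.finrank_range_add_finrank_ker (Theta Γ hΓ s u)
  rw [Module.finrank_prod, Module.finrank_fintype_fun_eq_card] at e1
  have e2 := finrank_ker_Theta_le Γ hΓ hgen
  have e3 : finrank ℂ (LinearMap.range (Theta Γ hΓ s u)) ≤ finrank ℂ (K.map (Dmap s u)) :=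
    Submodule.finrank_mono (range_Theta_le Γ hΓ hs2 hs4 hu3 hu6 ht)
  -- `ker D ≤ K`
  have hle : LinearMap.ker (Dmap (X := X) s u) ≤ K := by
    intro z hz
    rw [LinearMap.mem_ker] at hz
    show z ∈ LinearMap.ker _
    rw [LinearMap.mem_ker, LinearMap.comp_apply, dmap, LinearMap.comp_apply, hz]
    simp
  have e4 := finrank_map_add_le (Dmap (X := X) s u) K (LinearMap.ker (Dmap s u)) hle le_rfl
  -- `#Ω_s + #Ω_u ≤ finrank (ker D)`
  have e5 : Nat.card (Orb s X) + Nat.card (Orb u X)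
      ≤ finrank ℂ (LinearMap.ker (Dmap (X := X) s u)) := by
    let j : (invSub (X := X) s × invSub (X := X) u) →ₗ[ℂ] LinearMap.ker (Dmap (X := X) s u) :=
      LinearMap.codRestrict _
        (LinearMap.prodMap (invSub (X := X) s).subtype (invSub (X := X) u).subtype) (by
          rintro ⟨⟨v₁, h₁⟩, ⟨v₂, h₂⟩⟩
          rw [mem_invSub] at h₁ h₂
          rw [LinearMap.mem_ker, Dmap_apply]
          simp [h₁, h₂])
    have hj : Function.Injective j := by
      intro a b hab
      have h := congrArg (fun z : LinearMap.ker (Dmap (X := X) s u) => (z : (X → ℂ) × (X → ℂ))) hab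
      simp only [j, LinearMap.codRestrict_apply, LinearMap.prodMap_apply, Submodule.subtype_apply,
        Prod.mk.injEq] at h
      exact Prod.ext (Subtype.ext h.1) (Subtype.ext h.2)
    have h1 := LinearMap.finrank_le_finrank_of_injective hj
    rw [Module.finrank_prod] at h1
    have h2 := card_orb_le_finrank_invSub (X := X) s
    have h3 := card_orb_le_finrank_invSub (X := X) u
    omega
  -- `finrank K + #Ω_t ≤ 2 #X + 1`
  have e6 : finrank ℂ K + Nat.card (Orb (s⁻¹ * u) X) ≤ 2 * Fintype.card X + 1 := by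
    set Lp := LinearMap.coprod (avg (X := X) (s⁻¹ * u) n ∘ₗ dmap s u)
        (LinearMap.toSpanSingleton ℂ (X → ℂ) (fun _ => (1 : ℂ))) with hLp
    have r1 := LinearMap.finrank_range_add_finrank_ker Lp
    rw [Module.finrank_prod, Module.finrank_prod, Module.finrank_fintype_fun_eq_card,
      Module.finrank_self] at r1
    have r2 : finrank ℂ (invSub (X := X) (s⁻¹ * u)) ≤ finrank ℂ (LinearMap.range Lp) :=
      Submodule.finrank_mono (invSub_le_range hgen x₀ hn)
    have r3 := card_orb_le_finrank_invSub (X := X) (s⁻¹ * u)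
    let j : K →ₗ[ℂ] LinearMap.ker Lp :=
      LinearMap.codRestrict _ (LinearMap.inl ℂ _ ℂ ∘ₗ K.subtype) (by
        intro z
        rw [LinearMap.mem_ker, hLp, LinearMap.comp_apply, LinearMap.inl_apply,
          LinearMap.coprod_apply, map_zero, add_zero]
        exact z.2)
    have hj : Function.Injective j := by
      intro a b hab
      have h := congrArg (fun z : LinearMap.ker Lp => (z : ((X → ℂ) × (X → ℂ)) × ℂ).1) hab
      exact Subtype.ext h
    have r4 := LinearMap.finrank_le_finrank_of_injective hj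
    omega
  have hX : Nat.card X = Fintype.card X := Nat.card_eq_fintype_card
  omega

end Main

end Fermat.Agent.X0.S21
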