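import Mathlib
import Fermat.Prelude.Def_ModularCurve_PeriodMap
import Fermat.Agent.X0.Defs
import Fermat.Agent.X0.S21.ParabolicBound

/-!
# X-S21 (c): `dim parabolicHoms ℂ Γ₀(N) ℂ ≤ 2 * genusFormula N`

Instantiation of `ParabolicBound.lean` for `G = SL(2,ℤ)`, `X = SL(2,ℤ) ⧸ Γ₀(N)`, `s = S`,
`u = S * T`, `t = s⁻¹ * u = T`.
-/

set_option autoImplicit false

namespace Fermat.Agent.X0.S21

open Module ModularCurve ModularCurve.Period CongruenceSubgroup ModularGroup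
open scoped MatrixGroups

section Elements

lemma S_sq : (S : SL(2, ℤ)) ^ 2 = -1 := by decide

lemma S_pow_four : (S : SL(2, ℤ)) ^ 4 = 1 := by decide

lemma ST_cube : ((S : SL(2, ℤ)) * T) ^ 3 = -1 := by decide

lemma ST_pow_six : ((S : SL(2, ℤ)) * T) ^ 6 = 1 := by decide

lemma neg_one_mul_comm (g : SL(2, ℤ)) : (-1 : SL(2, ℤ)) * g = g * (-1) := by
  ext i j
  simp

lemma neg_one_mem_Gamma0 (N : ℕ) : (-1 : SL(2, ℤ)) ∈ Gamma0 N := by
  rw [Gamma0_mem]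
  simp

lemma closure_S_ST : Subgroup.closure ({S, S * T} : Set SL(2, ℤ)) = ⊤ := by
  rw [eq_top_iff, ← SpecialLinearGroup.SL2Z_generators, Subgroup.closure_le]
  rintro x (rfl | hx)
  · exact Subgroup.subset_closure (by simp)
  · have h1 : (S : SL(2, ℤ)) ∈ Subgroup.closure ({S, S * T} : Set SL(2, ℤ)) :=
      Subgroup.subset_closure (by simp)
    have h2 : (S : SL(2, ℤ)) * T ∈ Subgroup.closure ({S, S * T} : Set SL(2, ℤ)) :=
      Subgroup.subset_closure (by simp)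
    have h3 := Subgroup.mul_mem _ (Subgroup.inv_mem _ h1) h2
    rw [inv_mul_cancel_left] at h3
    rw [Set.mem_singleton_iff.mp hx]
    exact h3

end Elements

section Action

variable (N : ℕ)

lemma neg_one_smul_coset (x : SL(2, ℤ) ⧸ Gamma0 N) : (-1 : SL(2, ℤ)) • x = x := by
  induction x using QuotientGroup.induction_on with
  | H g =>
    rw [MulAction.Quotient.smul_mk, smul_eq_mul, neg_one_mul_comm]
    exact QuotientGroup.mk_mul_of_mem g (neg_one_mem_Gamma0 N)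

lemma mem_Gamma0_iff_smul (g : SL(2, ℤ)) :
    g ∈ Gamma0 N ↔ g • ((1 : SL(2, ℤ)) : SL(2, ℤ) ⧸ Gamma0 N) = ((1 : SL(2, ℤ)) : SL(2, ℤ) ⧸ Gamma0 N) := by
  rw [MulAction.Quotient.smul_mk, QuotientGroup.eq, smul_eq_mul, mul_one, mul_one]
  exact (Subgroup.inv_mem_iff _).symm

end Action

section Bound

variable (N : ℕ)

lemma trace_conj_T_pow (g : SL(2, ℤ)) (k : ℕ) :
    ((g * T ^ k * g⁻¹ : SL(2, ℤ)) : Matrix (Fin 2) (Fin 2) ℤ).trace = 2 := by
  have h1 : ((g * T ^ k * g⁻¹ : SL(2, ℤ)) : Matrix (Fin 2) (Fin 2) ℤ)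
      = (g : Matrix (Fin 2) (Fin 2) ℤ) * ((T ^ k : SL(2, ℤ)) : Matrix (Fin 2) (Fin 2) ℤ)
        * ((g⁻¹ : SL(2, ℤ)) : Matrix (Fin 2) (Fin 2) ℤ) := by
    simp only [Matrix.SpecialLinearGroup.coe_mul]
  rw [h1, Matrix.trace_mul_comm, ← Matrix.mul_assoc, ← Matrix.SpecialLinearGroup.coe_mul,
    inv_mul_cancel, Matrix.SpecialLinearGroup.coe_one, Matrix.one_mul]
  have h2 : ((T ^ k : SL(2, ℤ)) : Matrix (Fin 2) (Fin 2) ℤ) = !![1, (k : ℤ); 0, 1] := by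
    rw [← zpow_natCast, coe_T_zpow]
  rw [h2, Matrix.trace_fin_two_of]
  norm_num

lemma parabolicHoms_le_Par :
    parabolicHoms ℂ (Gamma0 N) ℂ ≤ Par (Gamma0 N) ((S : SL(2, ℤ))⁻¹ * (S * T)) := by
  intro φ hφ g k h
  rw [mem_parabolicHoms_iff] at hφ
  apply hφ ⟨_, h⟩
  show ((g * ((S : SL(2, ℤ))⁻¹ * (S * T)) ^ k * g⁻¹ : SL(2, ℤ)) :
    Matrix (Fin 2) (Fin 2) ℤ).trace ^ 2 = 4
  rw [inv_mul_cancel_left, trace_conj_T_pow]
  norm_num

lemma S_sq_smul (x : SL(2, ℤ) ⧸ Gamma0 N) : ((S : SL(2, ℤ)) ^ 2) • x = x := by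
  rw [S_sq]; exact neg_one_smul_coset N x

lemma ST_cube_smul (x : SL(2, ℤ) ⧸ Gamma0 N) : (((S : SL(2, ℤ)) * T) ^ 3) • x = x := by
  rw [ST_cube]; exact neg_one_smul_coset N x

variable [NeZero N]

instance instFiniteCosetsGamma0 : Finite (SL(2, ℤ) ⧸ Gamma0 N) :=
  Subgroup.finite_quotient_of_finiteIndex

/-- the Shapiro/Manin bound for `Γ₀(N)` -/
theorem finrank_Par_Gamma0_add_le :
    finrank ℂ (Par (Gamma0 N) ((S : SL(2, ℤ))⁻¹ * (S * T))) + orbitCount N S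
      + orbitCount N (S * T) + orbitCount N T ≤ Nat.card (SL(2, ℤ) ⧸ Gamma0 N) + 2 := by
  have key := finrank_par_add_card_orb_le (X := SL(2, ℤ) ⧸ Gamma0 N) (Gamma0 N)
    (mem_Gamma0_iff_smul N) closure_S_ST (S_sq_smul N) S_pow_four (ST_cube_smul N) ST_pow_six
  rw [inv_mul_cancel_left] at key ⊢
  exact key

theorem finite_Par_Gamma0 :
    Module.Finite ℂ (Par (Gamma0 N) ((S : SL(2, ℤ))⁻¹ * (S * T))) :=
  finite_par (X := SL(2, ℤ) ⧸ Gamma0 N) (Gamma0 N) (mem_Gamma0_iff_smul N) closure_S_ST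

/-- `parabolicHoms ℂ Γ₀(N) ℂ` is finite-dimensional. -/
instance finiteDimensional_parabolicHoms :
    FiniteDimensional ℂ (parabolicHoms ℂ (Gamma0 N) ℂ) := by
  have := finite_Par_Gamma0 N
  exact Submodule.finiteDimensional_of_le (parabolicHoms_le_Par N)

/-- The dimension bound, with the X-COUNT numbers as hypotheses. -/
theorem finrank_parabolicHoms_le_of_counts
    (hc : Nat.card (SL(2, ℤ) ⧸ Gamma0 N) = dedekindPsi N)
    (h2 : 2 * orbitCount N S = dedekindPsi N + nuTwo N)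
    (h3 : 3 * orbitCount N (S * T) = dedekindPsi N + 2 * nuThree N)
    (hT : orbitCount N T = cuspCount N) :
    (finrank ℂ (parabolicHoms ℂ (Gamma0 N) ℂ) : ℚ) ≤ 2 * genusFormula N := by
  have := finite_Par_Gamma0 N
  have h1 : finrank ℂ (parabolicHoms ℂ (Gamma0 N) ℂ)
      ≤ finrank ℂ (Par (Gamma0 N) ((S : SL(2, ℤ))⁻¹ * (S * T))) :=
    Submodule.finrank_mono (parabolicHoms_le_Par N)
  have key := finrank_Par_Gamma0_add_le N
  rw [hc, hT] at key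
  have hk : 6 * finrank ℂ (parabolicHoms ℂ (Gamma0 N) ℂ) + 3 * nuTwo N + 4 * nuThree N
      + 6 * cuspCount N ≤ dedekindPsi N + 12 := by omega
  have hk' : (6 * (finrank ℂ (parabolicHoms ℂ (Gamma0 N) ℂ) : ℚ) + 3 * nuTwo N + 4 * nuThree N
      + 6 * cuspCount N) ≤ dedekindPsi N + 12 := by exact_mod_cast hk
  rw [genusFormula]
  linarith

end Bound

end Fermat.Agent.X0.S21
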