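/-
X-S21 (D) (helper9): consequences of injectivity + the dimension bound for parabolic homs:
`dim S₂(Γ₀(N)) ≤ g` (S20 upper bound), and S21 from `g ≤ dim S₂(Γ₀(N))`.
-/
import Mathlib
import Fermat.Prelude.Def_ModularCurve_PeriodHomPair
import Fermat.Prelude.Def_ModularCurve_GenusNumerics
import Fermat.Agent.X0.S21.Injective
import Fermat.Agent.X0.S21.Parabolic
import Fermat.Agent.X0.S21.ParabolicGamma0

set_option autoImplicit false

open CongruenceSubgroup ModularCurve ModularCurve.Period Module
open scoped MatrixGroups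

namespace Fermat.Agent.X0.S21

variable (N : ℕ) [NeZero N]

/-- `periodHomPair`, with codomain restricted to the parabolic homs. -/
noncomputable def periodHomPairPar :
    (CuspForm (Gamma0 N) 2 × CuspForm (Gamma0 N) 2) →ₗ[ℂ] parabolicHoms ℂ (Gamma0 N) ℂ :=
  (periodHomPair N).codRestrict _ fun x => range_periodHomPair_le N ⟨x, rfl⟩

theorem periodHomPairPar_injective : Function.Injective (periodHomPairPar N) := by
  intro x y h
  apply periodHomPair_injective N
  exact congrArg Subtype.val h

/-- Cusp forms of weight 2 form a finite-dimensional space. -/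
theorem finiteDimensional_prod_cuspForm_two :
    FiniteDimensional ℂ (CuspForm (Gamma0 N) 2 × CuspForm (Gamma0 N) 2) :=
  Module.Finite.of_injective (periodHomPairPar N) (periodHomPairPar_injective N)

theorem finiteDimensional_cuspForm_two : FiniteDimensional ℂ (CuspForm (Gamma0 N) 2) := by
  have := finiteDimensional_prod_cuspForm_two N
  exact Module.Finite.of_injective (LinearMap.inl ℂ (CuspForm (Gamma0 N) 2) (CuspForm (Gamma0 N) 2))
    LinearMap.inl_injective

theorem two_mul_finrank_cuspForm_two_le :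
    2 * finrank ℂ (CuspForm (Gamma0 N) 2) ≤ finrank ℂ (parabolicHoms ℂ (Gamma0 N) ℂ) := by
  have := finiteDimensional_cuspForm_two N
  have h1 : finrank ℂ (CuspForm (Gamma0 N) 2 × CuspForm (Gamma0 N) 2) =
      2 * finrank ℂ (CuspForm (Gamma0 N) 2) := by
    rw [Module.finrank_prod, two_mul]
  rw [← h1]
  exact LinearMap.finrank_le_finrank_of_injective (periodHomPairPar_injective N)

/-- **S20, upper bound** (from the bound on parabolic homs). -/
theorem finrank_cuspForm_two_le_of_bound
    (hbound : (finrank ℂ (parabolicHoms ℂ (Gamma0 N) ℂ) : ℚ) ≤ 2 * genusFormula N) :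
    (finrank ℂ (CuspForm (Gamma0 N) 2) : ℚ) ≤ genusFormula N := by
  have h := two_mul_finrank_cuspForm_two_le N
  have h' : (2 * (finrank ℂ (CuspForm (Gamma0 N) 2) : ℚ)) ≤
      (finrank ℂ (parabolicHoms ℂ (Gamma0 N) ℂ) : ℚ) := by exact_mod_cast h
  linarith

/-- **S21** from the bound on parabolic homs and the lower bound `g ≤ dim S₂`. -/
theorem s21_of_bounds
    (hbound : (finrank ℂ (parabolicHoms ℂ (Gamma0 N) ℂ) : ℚ) ≤ 2 * genusFormula N)
    (hlower : genusFormula N ≤ (finrank ℂ (CuspForm (Gamma0 N) 2) : ℚ)) :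
    Function.Injective (periodHomPair N) ∧
      LinearMap.range (periodHomPair N) = parabolicHoms ℂ (Gamma0 N) ℂ := by
  refine ⟨periodHomPair_injective N, ?_⟩
  have := finiteDimensional_cuspForm_two N
  have hle := range_periodHomPair_le N
  apply Submodule.eq_of_le_of_finrank_le hle
  have h1 : finrank ℂ (LinearMap.range (periodHomPair N)) =
      finrank ℂ (CuspForm (Gamma0 N) 2 × CuspForm (Gamma0 N) 2) :=
    LinearMap.finrank_range_of_inj (periodHomPair_injective N)
  have h2 : finrank ℂ (CuspForm (Gamma0 N) 2 × CuspForm (Gamma0 N) 2) =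
      2 * finrank ℂ (CuspForm (Gamma0 N) 2) := by
    rw [Module.finrank_prod, two_mul]
  rw [h1, h2]
  have h3 : (finrank ℂ (parabolicHoms ℂ (Gamma0 N) ℂ) : ℚ) ≤
      ((2 * finrank ℂ (CuspForm (Gamma0 N) 2) : ℕ) : ℚ) := by
    push_cast
    linarith
  exact_mod_cast h3

end Fermat.Agent.X0.S21
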