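import Fermat.Agent.X0.S21.ParabolicGamma0
import Fermat.Agent.X0.CountBasic
import Fermat.Agent.X0.Count.Cusps

/-!
# X-S21 (c), final form: `dim parabolicHoms ℂ Γ₀(N) ℂ ≤ 2 * genusFormula N` (hypothesis free)
-/

set_option autoImplicit false

namespace Fermat.Agent.X0.S21

open Module ModularCurve ModularCurve.Period CongruenceSubgroup ModularGroup
open scoped MatrixGroups

/-- the number of `T`-orbits on the cosets is the number of cusps -/
theorem orbitCount_T_eq_cuspCount (N : ℕ) [NeZero N] : orbitCount N T = cuspCount N := by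
  rw [orbitCount_eq_orbP1]
  exact Count.card_orbits_T N

/-- **X-S21 (C)**: the dimension of the space of parabolic homomorphisms is at most `2g`. -/
theorem finrank_parabolicHoms_le (N : ℕ) [NeZero N] :
    (finrank ℂ (parabolicHoms ℂ (Gamma0 N) ℂ) : ℚ) ≤ 2 * genusFormula N :=
  finrank_parabolicHoms_le_of_counts N (card_cosets N) (two_mul_orbitCount_S N)
    (three_mul_orbitCount_ST N) (orbitCount_T_eq_cuspCount N)

end Fermat.Agent.X0.S21
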