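/-
X-S21 / S20 end glue (helper9): S20 and S21 from the single remaining input
`hlower : genusFormula N ≤ dim_ℂ S₂(Γ₀(N))` (the Riemann–Roch lower bound of X-RR).
-/
import Fermat.Agent.X0.S21.Final
import Fermat.Agent.X0.S21.ParabolicFinal

set_option autoImplicit false

open CongruenceSubgroup ModularCurve ModularCurve.Period Module
open scoped MatrixGroups

namespace Fermat.Agent.X0.S21

variable (N : ℕ) [NeZero N]

/-- **S20, upper bound**, unconditional: `dim S₂(Γ₀(N)) ≤ g`. -/
theorem finrank_cuspForm_two_le :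
    (finrank ℂ (CuspForm (Gamma0 N) 2) : ℚ) ≤ genusFormula N :=
  finrank_cuspForm_two_le_of_bound N (finrank_parabolicHoms_le N)

/-- **S20** from the lower bound. -/
theorem s20_of_lower (hlower : genusFormula N ≤ (finrank ℂ (CuspForm (Gamma0 N) 2) : ℚ)) :
    (finrank ℂ (CuspForm (Gamma0 N) 2) : ℚ) = genusFormula N :=
  le_antisymm (finrank_cuspForm_two_le N) hlower

/-- **S21** from the lower bound. -/
theorem s21_of_lower (hlower : genusFormula N ≤ (finrank ℂ (CuspForm (Gamma0 N) 2) : ℚ)) :
    Function.Injective (periodHomPair N) ∧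
      LinearMap.range (periodHomPair N) = parabolicHoms ℂ (Gamma0 N) ℂ :=
  s21_of_bounds N (finrank_parabolicHoms_le N) hlower

end Fermat.Agent.X0.S21
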